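import Mathlib

/-!
# P16 (S31): an Artin–Rees bound for maps out of a group with values in a lattice

`exists_bound_of_ker_le`: let `f : E → M` be a homomorphism into a finitely generated abelian
group and `h : E → T'` a homomorphism which vanishes on `ker f`.  Then there is a constant `c`
such that whenever `f e` is divisible by `p ^ n` in `M`, the value `h e` is `p ^ (n - c)` times a
value of `h`.
-/

set_option autoImplicit false

namespace Fermat.Agent.S31

/-- **Artin–Rees bound.**  If `h` vanishes on `ker f` and `M` is a finitely generated abelian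
group, there is `c` such that `f e ∈ p ^ n • M` implies `h e ∈ p ^ (n - c) • h(E)`. -/
theorem exists_bound_of_ker_le {E M T' : Type*} [AddCommGroup E] [AddCommGroup M]
    [Module.Finite ℤ M] [AddCommGroup T'] (f : E →+ M) (h : E →+ T')
    (hker : ∀ e : E, f e = 0 → h e = 0) (p : ℕ) :
    ∃ c : ℕ, ∀ (n : ℕ) (e : E), (∃ m : M, f e = ((p : ℤ) ^ n) • m) →
      ∃ e' : E, h e = ((p : ℤ) ^ (n - c)) • h e' := by
  obtain ⟨c, hc⟩ := Ideal.exists_pow_inf_eq_pow_smul (Ideal.span {(p : ℤ)})
    (LinearMap.range f.toIntLinearMap)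
  refine ⟨c, fun n e ⟨m, hm⟩ => ?_⟩
  by_cases hn : c ≤ n
  · have h1 : f e ∈ Ideal.span {(p : ℤ)} ^ n • (⊤ : Submodule ℤ M) ⊓
        LinearMap.range f.toIntLinearMap := by
      refine ⟨?_, ⟨e, rfl⟩⟩
      rw [hm, Ideal.span_singleton_pow]
      exact Submodule.smul_mem_smul (Ideal.mem_span_singleton_self _) Submodule.mem_top
    rw [hc n hn] at h1
    have h2 : f e ∈ Ideal.span {(p : ℤ)} ^ (n - c) • LinearMap.range f.toIntLinearMap :=
      Submodule.smul_mono le_rfl inf_le_right h1
    rw [Ideal.span_singleton_pow, Submodule.ideal_span_singleton_smul] at h2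
    obtain ⟨y, ⟨e', rfl⟩, hy⟩ := (Submodule.mem_smul_pointwise_iff_exists _ _ _).mp h2
    refine ⟨e', ?_⟩
    have h3 : f (e - ((p : ℤ) ^ (n - c)) • e') = 0 := by
      rw [map_sub, map_zsmul, ← hy, sub_eq_zero]
      rfl
    have h4 := hker _ h3
    rw [map_sub, map_zsmul, sub_eq_zero] at h4
    exact h4
  · refine ⟨e, ?_⟩
    rw [Nat.sub_eq_zero_of_le (le_of_not_ge hn), pow_zero, one_smul]

end Fermat.Agent.S31
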