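import Fermat.Agent.S31.Faithful
import Fermat.Agent.S31.Lattice

/-!
# P16 (S31): the character lattice bound

`exists_bound`: there is a constant `c` (depending on `N`, `S`, `p` only) such that an element `e`
of the free algebra on the good primes which kills all cuspidal `ℤ / p ^ n`-valued characters of
`Γ₀(N)` has image in the Hecke algebra divisible by `p ^ (n - c)`.

The integer-valued characters of `Γ₀(N)` form a finitely generated abelian group (`Γ₀(N)` is
finitely generated), so the cuspidal ones are spanned by finitely many `ψ₁, …, ψ_r`.  The map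
`e ↦ (evChar ℤ e ψ_i)_i` has kernel inside the kernel of `evHecke` (faithfulness), and the
Artin–Rees bound of `Lattice.lean` applies.
-/

set_option autoImplicit false

namespace Fermat.Agent.S31

open Fermat.Agent.S42 Fermat.Agent.S30 CongruenceSubgroup
open scoped MatrixGroups

namespace CharLattice

/-- The integer-valued additive characters of a finitely generated group form a finitely
generated abelian group. -/
theorem finite_hom_int {G : Type*} [Group G] (hG : Group.FG G) :
    Module.Finite ℤ (Additive G →+ ℤ) := by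
  classical
  obtain ⟨s, hs, hfin⟩ := Group.fg_iff.mp hG
  have : Finite ↥s := hfin
  let Φ : (Additive G →+ ℤ) →ₗ[ℤ] (↥s → ℤ) :=
    { toFun := fun φ g => φ (Additive.ofMul (g : G))
      map_add' := fun φ ψ => rfl
      map_smul' := fun r φ => rfl }
  have hΦ : Function.Injective Φ := by
    refine (injective_iff_map_eq_zero Φ).mpr fun φ hφ => ?_
    have key : ∀ g : G, φ (Additive.ofMul g) = 0 := by
      intro g
      have hg : g ∈ Subgroup.closure s := by rw [hs]; exact Subgroup.mem_top g
      induction hg using Subgroup.closure_induction with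
      | mem x hx => exact congrFun hφ ⟨x, hx⟩
      | one => exact map_zero φ
      | mul x y _ _ hx hy => rw [ofMul_mul, map_add, hx, hy, add_zero]
      | inv x _ hx => rw [ofMul_inv, map_neg, hx, neg_zero]
    exact AddMonoidHom.ext fun γ => key (Additive.toMul γ)
  exact Module.Finite.of_injective Φ hΦ

/-- A character all of whose values are divisible by `d ≠ 0` is `d` times a character. -/
theorem exists_eq_zsmul_of_forall_dvd {G : Type*} [Group G] (φ : Additive G →+ ℤ) (d : ℤ)
    (h : ∀ γ, d ∣ φ γ) : ∃ ψ : Additive G →+ ℤ, φ = d • ψ := by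
  refine ⟨AddMonoidHom.mk' (fun γ => φ γ / d) fun a b => ?_, ?_⟩
  · rw [map_add]
    exact Int.add_ediv_of_dvd_left (h a)
  · refine AddMonoidHom.ext fun γ => ?_
    rw [AddMonoidHom.smul_apply, AddMonoidHom.mk'_apply, smul_eq_mul]
    exact (Int.mul_ediv_cancel' (h γ)).symm

end CharLattice

/-- **The character lattice bound.**  There is a constant `c` such that every element of the free
algebra on the good primes which kills the cuspidal `ℤ / p ^ n`-valued characters of `Γ₀(N)` has
image in the Hecke algebra divisible by `p ^ (n - c)`. -/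
theorem exists_bound (N : ℕ) [NeZero N] (S : Set ℕ) (p : ℕ) (hp : 0 < p) :
    ∃ c : ℕ, ∀ (n : ℕ) (e : FreeAlgebra ℤ (GoodPrime N S)),
      (∀ φ : Additive ↥(Gamma0 N) →+ ZMod (p ^ n), IsCuspidalHom N φ →
        evChar N S (ZMod (p ^ n)) e φ = 0) →
      ∃ t : CuspForm.heckeAlgebra N 2 S, evHecke N S e = ((p : ℤ) ^ (n - c)) • t := by
  classical
  have hp' : NeZero p := ⟨hp.ne'⟩
  have : Module.Finite ℤ (Additive ↥(Gamma0 N) →+ ℤ) :=
    CharLattice.finite_hom_int (gamma0_fg N)
  -- the submodule of cuspidal characters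
  let C : Submodule ℤ (Additive ↥(Gamma0 N) →+ ℤ) :=
    { carrier := {ψ | IsCuspidalHom N ψ}
      add_mem' := by
        intro a b ha hb γ hγ
        rw [AddMonoidHom.add_apply, ha γ hγ, hb γ hγ, add_zero]
      zero_mem' := fun γ _ => rfl
      smul_mem' := by
        intro r a ha γ hγ
        rw [AddMonoidHom.smul_apply, ha γ hγ, smul_zero] }
  have hCmem : ∀ ψ : Additive ↥(Gamma0 N) →+ ℤ, ψ ∈ C ↔ IsCuspidalHom N ψ := fun ψ => Iff.rfl
  obtain ⟨s, hs⟩ : C.FG := IsNoetherian.noetherian C
  let f : FreeAlgebra ℤ (GoodPrime N S) →+ (↥s → (Additive ↥(Gamma0 N) →+ ℤ)) :=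
    { toFun := fun e i => evChar N S ℤ e i.1
      map_zero' := by
        funext i
        rw [map_zero]
        rfl
      map_add' := by
        intro a b
        funext i
        rw [map_add]
        rfl }
  have hf : ∀ e i, f e i = evChar N S ℤ e i.1 := fun e i => rfl
  let h : FreeAlgebra ℤ (GoodPrime N S) →+ CuspForm.heckeAlgebra N 2 S :=
    (evHecke N S).toLinearMap.toAddMonoidHom
  have hh : ∀ e, h e = evHecke N S e := fun e => rfl
  have hker : ∀ e, f e = 0 → h e = 0 := by
    intro e he
    rw [hh]
    apply evHecke_eq_zero_of_evChar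
    intro ψ hψ
    have hmem : ψ ∈ Submodule.span ℤ (s : Set (Additive ↥(Gamma0 N) →+ ℤ)) := by
      rw [hs]
      exact hψ
    induction hmem using Submodule.span_induction with
    | mem x hx =>
      have h1 := congrFun he ⟨x, hx⟩
      exact h1
    | zero => exact map_zero _
    | add x y _ _ hx hy =>
      rw [map_add, hx ((hCmem x).mp (by rw [← hs]; assumption)),
        hy ((hCmem y).mp (by rw [← hs]; assumption)), add_zero]
    | smul r x _ hx =>
      rw [map_smul, hx ((hCmem x).mp (by rw [← hs]; assumption)), smul_zero]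
  obtain ⟨c, hc⟩ := exists_bound_of_ker_le f h hker p
  refine ⟨c, fun n e he => ?_⟩
  have hdiv : ∃ m : ↥s → (Additive ↥(Gamma0 N) →+ ℤ), f e = ((p : ℤ) ^ n) • m := by
    have h1 : ∀ i : ↥s, ∃ ψ : Additive ↥(Gamma0 N) →+ ℤ,
        evChar N S ℤ e i.1 = ((p : ℤ) ^ n) • ψ := by
      intro i
      apply CharLattice.exists_eq_zsmul_of_forall_dvd
      intro γ
      have hi : IsCuspidalHom N i.1 := by
        rw [← hCmem, ← hs]
        exact Submodule.subset_span i.2
      have hcusp : IsCuspidalHom N ((Int.castAddHom (ZMod (p ^ n))).comp i.1) := by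
        intro γ' hγ'
        rw [AddMonoidHom.comp_apply, hi γ' hγ', map_zero]
      have h2 := he _ hcusp
      rw [evChar_comp] at h2
      have h3 : ((evChar N S ℤ e i.1 γ : ℤ) : ZMod (p ^ n)) = 0 := DFunLike.congr_fun h2 γ
      have h4 := (ZMod.intCast_zmod_eq_zero_iff_dvd _ _).mp h3
      rw [Nat.cast_pow] at h4
      exact h4
    choose m hm using h1
    exact ⟨m, funext fun i => hm i⟩
  obtain ⟨e', he'⟩ := hc n e hdiv
  exact ⟨evHecke N S e', he'⟩

end Fermat.Agent.S31
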