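import Fermat.Agent.S30.CycloAdic

/-!
P16 / S31, module `GeomCyclo`: the cyclotomic congruence.

If `σ ^ j` and `σ' ^ j'` (`σ`, `σ'` Frobenius elements at primes `ℓ, ℓ' ≠ p`) agree on a primitive
`p ^ n`-th root of unity with `g`, resp. `τ * g` (`τ` in an inertia group at a prime `q ≠ p`), then
`ℓ ^ j ≡ ℓ' ^ j'` modulo `p ^ n`.
-/

set_option autoImplicit false

namespace Fermat.Agent.S31

open Fermat.Agent.S42 Fermat.Agent.S30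

namespace GeomCyclo

/-- The `j`-th power of a Frobenius element at `ℓ ≠ p` raises every `p`-power root of unity to
the power `ℓ ^ j`. -/
theorem frobenius_pow_apply {p : ℕ} (hp : p.Prime) {ℓ : ℕ} (hℓ : ℓ.Prime) (hℓp : ℓ ≠ p)
    {A : ValuationSubring (AlgebraicClosure ℚ)} (hA : A.LiesOverPrime ℓ)
    {σ : AlgebraicClosure ℚ ≃ₐ[ℚ] AlgebraicClosure ℚ} (hσ : A.IsFrobeniusAt σ ℓ) {n : ℕ} (j : ℕ)
    {t : AlgebraicClosure ℚ} (ht : t ^ p ^ n = 1) : (σ ^ j) t = t ^ ℓ ^ j := by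
  induction j generalizing t with
  | zero => rw [pow_zero, pow_zero, pow_one]; rfl
  | succ j ih =>
    have ht' : (t ^ ℓ) ^ p ^ n = 1 := by rw [← pow_mul, mul_comm, pow_mul, ht, one_pow]
    rw [pow_succ, AlgEquiv.mul_apply, cya_frobenius_apply hp hℓ hℓp hA hσ ht, ih ht', ← pow_mul,
      ← pow_succ']

end GeomCyclo

theorem pow_modEq_of_frobenius {p : ℕ} (hp : p.Prime) (n : ℕ) {ℓ ℓ' q : ℕ}
    (hℓ : ℓ.Prime) (hℓp : ℓ ≠ p) (hℓ' : ℓ'.Prime) (hℓ'p : ℓ' ≠ p) (hq : q.Prime) (hqp : q ≠ p)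
    {A A' P : ValuationSubring (AlgebraicClosure ℚ)} (hA : A.LiesOverPrime ℓ)
    (hA' : A'.LiesOverPrime ℓ') (hP : P.LiesOverPrime q)
    {σ σ' τ g : AlgebraicClosure ℚ ≃ₐ[ℚ] AlgebraicClosure ℚ} (hσ : A.IsFrobeniusAt σ ℓ)
    (hσ' : A'.IsFrobeniusAt σ' ℓ') (hτ : τ ∈ P.inertiaSubgroupIn ℚ)
    {ζ : AlgebraicClosure ℚ} (hζ : IsPrimitiveRoot ζ (p ^ n)) {j j' : ℕ}
    (h1 : (σ ^ j) ζ = g ζ) (h2 : (σ' ^ j') ζ = (τ * g) ζ) :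
    ℓ ^ j ≡ ℓ' ^ j' [MOD p ^ n] := by
  have hpn : p ^ n ≠ 0 := pow_ne_zero _ hp.ne_zero
  have hζ1 : ζ ^ p ^ n = 1 := hζ.pow_eq_one
  have hgζ : (g ζ) ^ p ^ n = 1 := by rw [← map_pow, hζ1, map_one]
  have e1 : (σ ^ j) ζ = ζ ^ ℓ ^ j := GeomCyclo.frobenius_pow_apply hp hℓ hℓp hA hσ j hζ1
  have e2 : (σ' ^ j') ζ = ζ ^ ℓ' ^ j' := GeomCyclo.frobenius_pow_apply hp hℓ' hℓ'p hA' hσ' j' hζ1
  have e3 : (τ * g) ζ = g ζ := by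
    rw [AlgEquiv.mul_apply]
    exact cya_inertia_apply hp hq hqp hP hτ hgζ
  have h : ζ ^ ℓ ^ j = ζ ^ ℓ' ^ j' := by rw [← e1, ← e2, h1, h2, e3]
  rw [(hζ.isOfFinOrder hpn).pow_eq_pow_iff_modEq, ← hζ.eq_orderOf] at h
  exact h

end Fermat.Agent.S31
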