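import Fermat.Agent.S42.Kummer
import Fermat.Agent.S42.FinLevel
import Fermat.Agent.S42.Cyclo
import Fermat.Agent.S30.TateFree
import Fermat.Agent.S30.CycloAdic

/-!
# P16 (S31), Geom chain, module G4: the finite Galois level

For a finite subextension `L` of `ℚ̄/ℚ`, a prime `p` and `n`, there is a finite Galois
subextension `L' ⊇ L` containing a primitive `p ^ n`-th root of unity and such that every Kummer
class of a character `Γ₀(N) → ℤ/p ^ n` is fixed by `Gal(ℚ̄/L')`.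
-/

set_option autoImplicit false
set_option linter.style.haveILetI false

namespace Fermat.Agent.S31

open Fermat.Agent.S42 Fermat.Agent.S30 ModularCurve CongruenceSubgroup
open scoped MatrixGroups

namespace GeomField

/-- For each character `φ : Γ₀(N) → ℤ/m`, a finite level fixing its Kummer class (if any). -/
theorem exists_field_of_char (N m : ℕ) [NeZero N] [NeZero m]
    (φ : Additive ↥(Gamma0 N) →+ ZMod m) :
    ∃ Lφ : IntermediateField ℚ (AlgebraicClosure ℚ), FiniteDimensional ℚ Lφ ∧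
      ∀ c : JZero N, IsKummer N m φ c →
        ∀ σ : AlgebraicClosure ℚ ≃ₐ[ℚ] AlgebraicClosure ℚ, (∀ y ∈ Lφ, σ y = y) → σ • c = c := by
  by_cases h : ∃ c, IsKummer N m φ c
  · obtain ⟨c, hc⟩ := h
    obtain ⟨Lc, hLc, hfix⟩ := FinLevel.fixedFin_class N c
    refine ⟨Lc, hLc, fun c' hc' σ hσ => ?_⟩
    rw [isKummer_unique hc' hc]
    exact hfix σ hσ
  · exact ⟨⊥, inferInstance, fun c hc => absurd ⟨c, hc⟩ h⟩

end GeomField

/-- **The finite Galois level.** There is a finite Galois subextension `L' ⊇ L` of `ℚ̄/ℚ`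
containing a primitive `p ^ n`-th root of unity and such that `Gal(ℚ̄/L')` fixes every Kummer
class of a character `Γ₀(N) → ℤ/p ^ n`. -/
theorem exists_galois_level (N p n : ℕ) [NeZero N] [Fact p.Prime]
    (L : IntermediateField ℚ (AlgebraicClosure ℚ)) [FiniteDimensional ℚ L] :
    ∃ L' : IntermediateField ℚ (AlgebraicClosure ℚ), L ≤ L' ∧ FiniteDimensional ℚ L' ∧
      IsGalois ℚ L' ∧ (∃ ζ : AlgebraicClosure ℚ, ζ ∈ L' ∧ IsPrimitiveRoot ζ (p ^ n)) ∧
      ∀ (φ : Additive ↥(Gamma0 N) →+ ZMod (p ^ n)) (c : JZero N), IsKummer N (p ^ n) φ c →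
        ∀ σ : AlgebraicClosure ℚ ≃ₐ[ℚ] AlgebraicClosure ℚ, (∀ y ∈ L', σ y = y) → σ • c = c := by
  classical
  have hp : p.Prime := Fact.out
  haveI : NeZero (p ^ n) := ⟨pow_ne_zero n hp.ne_zero⟩
  haveI : Finite (Additive ↥(Gamma0 N) →+ ZMod (p ^ n)) := finite_hom_zmod N (p ^ n)
  choose Lφ hLφfd hLφ using GeomField.exists_field_of_char N (p ^ n)
  obtain ⟨ζ, hζ⟩ := cya_exists_primitiveRoot p n
  haveI : ∀ φ, FiniteDimensional ℚ ↥(Lφ φ) := hLφfd
  haveI : FiniteDimensional ℚ ↥(⨆ φ, Lφ φ) := IntermediateField.finiteDimensional_iSup_of_finite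
  haveI : FiniteDimensional ℚ ↥(IntermediateField.adjoin ℚ {ζ}) :=
    IntermediateField.adjoin.finiteDimensional (hζ.isIntegral (pow_pos hp.pos n)).tower_top
  obtain ⟨L₁, h1, h2, hfd1, -⟩ := cy_exists_finite_galois_ge_sup L (⨆ φ, Lφ φ)
  haveI := hfd1
  obtain ⟨L', h3, h4, hfd, hgal⟩ :=
    cy_exists_finite_galois_ge_sup L₁ (IntermediateField.adjoin ℚ {ζ})
  refine ⟨L', h1.trans h3, hfd, hgal,
    ⟨ζ, h4 (IntermediateField.mem_adjoin_simple_self ℚ ζ), hζ⟩, ?_⟩
  intro φ c hc σ hσ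
  exact hLφ φ c hc σ (fun y hy => hσ y (h3 (h2 (le_iSup Lφ φ hy))))

end Fermat.Agent.S31
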