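import Fermat.Agent.S31.Defs
import Fermat.Agent.S42.TorsionDefs
import Fermat.Agent.S42.KummerBasic
import Fermat.Agent.S42.HeckeKummer

/-!
# P16 (S31), G2 (second team): Kummer classes and the Lucas elements of the Hecke operators

* `isKummer_evChar_lucasE_B`: if `c` is the Kummer class of the character `φ`, then
  `lucas T_ℓ ℓ j c` is the Kummer class of `evChar (lucasE ℓ j) φ`.
* `evChar_lucasE_sub_eq_zero_B`: hence `evChar (lucasE ℓ j - lucasE ℓ' j') φ = 0` as soon as the
  two Lucas elements agree on `c`.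
-/

set_option autoImplicit false

namespace Fermat.Agent.S31

open Fermat.Agent.S42 Fermat.Agent.S30 CongruenceSubgroup ModularCurve
open scoped MatrixGroups

namespace GeomKummerB

variable {N m : ℕ} [NeZero N] [NeZero m]

/-- The trivial character has Kummer class `0` (as soon as some character has a class). -/
theorem isKummer_zero_of {φ : Additive ↥(Gamma0 N) →+ ZMod m} {c : JZero N}
    (h : IsKummer N m φ c) : IsKummer N m (0 : Additive ↥(Gamma0 N) →+ ZMod m) (0 : JZero N) := by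
  have h1 := isKummer_add h (KummerBasic.isKummer_neg h)
  rwa [add_neg_cancel, add_neg_cancel] at h1

theorem isKummer_sub {φ φ' : Additive ↥(Gamma0 N) →+ ZMod m} {c c' : JZero N}
    (h : IsKummer N m φ c) (h' : IsKummer N m φ' c') : IsKummer N m (φ - φ') (c - c') := by
  rw [sub_eq_add_neg, sub_eq_add_neg]
  exact isKummer_add h (KummerBasic.isKummer_neg h')

theorem isKummer_nsmul {φ : Additive ↥(Gamma0 N) →+ ZMod m} {c : JZero N}
    (h : IsKummer N m φ c) (n : ℕ) : IsKummer N m (n • φ) (n • c) := by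
  induction n with
  | zero =>
    rw [zero_nsmul, zero_nsmul]
    exact isKummer_zero_of h
  | succ n ih =>
    rw [succ_nsmul, succ_nsmul]
    exact isKummer_add ih h

end GeomKummerB

/-- Kummer classes are compatible with the Lucas elements of the Hecke operators. -/
theorem isKummer_evChar_lucasE_B {N m : ℕ} [NeZero N] [NeZero m] (S : Set ℕ) (ℓ : GoodPrime N S)
    (j : ℕ) {φ : Additive ↥(Gamma0 N) →+ ZMod m} {c : JZero N} (h : IsKummer N m φ c) :
    IsKummer N m (evChar N S (ZMod m) (lucasE ℓ j) φ)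
      (lucas (heckeOperatorBar N ⟨ℓ.1, ℓ.2.1⟩) (((ℓ : ℕ) : ℕ) : Module.End ℤ (JZero N)) j c) := by
  rw [evChar_lucasE]
  induction j using Nat.twoStepInduction with
  | zero =>
    rw [lucas_zero, lucas_zero]
    have h2 := GeomKummerB.isKummer_nsmul h 2
    rw [Module.End.ofNat_apply, Module.End.ofNat_apply]
    exact h2
  | one =>
    rw [lucas_one, lucas_one, heckeEnd_apply]
    exact isKummer_hecke ℓ.2.1 ℓ.2.2.1 h (isHeckeTransform_heckeFun N ℓ.1 ℓ.2.1 ℓ.2.2.1 φ)
  | more j h0 h1 =>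
    rw [lucas_add_two, lucas_add_two, LinearMap.sub_apply, LinearMap.sub_apply,
      Module.End.mul_apply, Module.End.mul_apply, Module.End.mul_apply, Module.End.mul_apply,
      heckeEnd_apply]
    have hT := isKummer_hecke ℓ.2.1 ℓ.2.2.1 h1
      (isHeckeTransform_heckeFun N ℓ.1 ℓ.2.1 ℓ.2.2.1 _)
    have hn := GeomKummerB.isKummer_nsmul h0 (ℓ : ℕ)
    rw [Module.End.natCast_apply, Module.End.natCast_apply]
    exact GeomKummerB.isKummer_sub hT hn

theorem evChar_lucasE_sub_eq_zero_B {N m : ℕ} [NeZero N] [NeZero m] (S : Set ℕ)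
    (ℓ ℓ' : GoodPrime N S) (j j' : ℕ) {φ : Additive ↥(Gamma0 N) →+ ZMod m} {c : JZero N}
    (h : IsKummer N m φ c)
    (hc : lucas (heckeOperatorBar N ⟨ℓ.1, ℓ.2.1⟩) (((ℓ : ℕ) : ℕ) : Module.End ℤ (JZero N)) j c
      = lucas (heckeOperatorBar N ⟨ℓ'.1, ℓ'.2.1⟩) (((ℓ' : ℕ) : ℕ) : Module.End ℤ (JZero N)) j' c) :
    evChar N S (ZMod m) (lucasE ℓ j - lucasE ℓ' j') φ = 0 := by
  have h1 := isKummer_evChar_lucasE_B S ℓ j h
  have h2 := isKummer_evChar_lucasE_B S ℓ' j' h
  have h3 := GeomKummerB.isKummer_sub h1 h2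
  rw [hc, sub_self] at h3
  rw [map_sub, LinearMap.sub_apply]
  exact eq_zero_of_isKummer_zero h3

end Fermat.Agent.S31
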