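import Fermat.Agent.S31.Defs
import Fermat.Agent.S42.TorsionDefs

/-!
# P16 (S31), module G3 GeomTorsion: the Lucas elements of `T_ℓ` on the torsion of `J₀(N)`

`lucas_heckeOperatorBar_apply`: on the `m`-torsion of `J₀(N)`, for a Frobenius lift `σ` at a prime
`ℓ ∤ N m`, the Eichler–Shimura relation (E1) gives
`lucas (T_ℓ) ℓ j x = σ ^ j • x + ℓ ^ j • (σ ^ j)⁻¹ • x`.

The proof works in the ring `Module.End ℤ ↥(Jp N m)`, where the Galois action is by units and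
`T_ℓ = σ + ℓ σ⁻¹` by (E1), and then transfers the identity to `JZero N`.
-/

set_option autoImplicit false

namespace Fermat.Agent.S31

open Fermat.Agent.S42 ModularCurve AlgebraicCurve

namespace GeomTorsion

/-- In a ring: if `F` is invertible with inverse `F'` and `F² − T F + ℓ = 0`, then
`lucas T ℓ j = F ^ j + ℓ ^ j F' ^ j`. -/
theorem lucas_eq_pow_add_pow_aux {R : Type*} [Ring R] (F F' T : R) (ℓ : ℕ) (h1 : F * F' = 1)
    (h2 : F' * F = 1) (h : F * F - T * F + (ℓ : R) = 0) (j : ℕ) :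
    lucas T (ℓ : R) j = F ^ j + (ℓ : R) ^ j * F' ^ j := by
  have hT : T = F + (ℓ : R) * F' := by
    have h3 : (F * F - T * F + (ℓ : R)) * F' = 0 := by rw [h, zero_mul]
    have h4 : (F * F - T * F + (ℓ : R)) * F' = F - T + (ℓ : R) * F' := by
      rw [add_mul, sub_mul, mul_assoc, mul_assoc, h1, mul_one, mul_one]
    rw [h4] at h3
    have h5 : T = F - T + (ℓ : R) * F' + T := by rw [h3, zero_add]
    rw [h5]
    abel
  have hck : ∀ (k : ℕ) (x : R), (ℓ : R) ^ k * x = x * (ℓ : R) ^ k :=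
    fun k x => ((Nat.cast_commute ℓ x).pow_left k).eq
  have hF'F : ∀ k : ℕ, F' * F ^ (k + 1) = F ^ k := by
    intro k
    rw [pow_succ', ← mul_assoc, h2, one_mul]
  have hFF' : ∀ k : ℕ, F * F' ^ (k + 1) = F' ^ k := by
    intro k
    rw [pow_succ', ← mul_assoc, h1, one_mul]
  induction j using Nat.twoStepInduction with
  | zero =>
    rw [lucas_zero, pow_zero, pow_zero, pow_zero, mul_one]
    exact one_add_one_eq_two.symm
  | one =>
    rw [lucas_one, pow_one, pow_one, pow_one]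
    exact hT
  | more j ih1 ih2 =>
    rw [lucas_add_two, ih1, ih2, hT]
    have e1 : (F + (ℓ : R) * F') * (F ^ (j + 1) + (ℓ : R) ^ (j + 1) * F' ^ (j + 1))
        = F ^ (j + 2) + (ℓ : R) * F ^ j + (ℓ : R) ^ (j + 1) * F' ^ j
          + (ℓ : R) ^ (j + 2) * F' ^ (j + 2) := by
      rw [add_mul, mul_add, mul_add]
      have a1 : F * F ^ (j + 1) = F ^ (j + 2) := (pow_succ' F (j + 1)).symm
      have a2 : F * ((ℓ : R) ^ (j + 1) * F' ^ (j + 1)) = (ℓ : R) ^ (j + 1) * F' ^ j := by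
        rw [← mul_assoc, ← hck (j + 1) F, mul_assoc, hFF']
      have a3 : (ℓ : R) * F' * F ^ (j + 1) = (ℓ : R) * F ^ j := by
        rw [mul_assoc, hF'F]
      have a4 : (ℓ : R) * F' * ((ℓ : R) ^ (j + 1) * F' ^ (j + 1))
          = (ℓ : R) ^ (j + 2) * F' ^ (j + 2) := by
        rw [mul_assoc, ← mul_assoc F', ← hck (j + 1) F', mul_assoc, ← mul_assoc (ℓ : R),
          ← pow_succ' (ℓ : R) (j + 1), ← pow_succ' F' (j + 1)]
      rw [a1, a2, a3, a4]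
      abel
    rw [e1, mul_add, ← mul_assoc, ← pow_succ' (ℓ : R) j]
    abel

/-- The Galois action on `J₀(N)[m]` as a monoid homomorphism into the `ℤ`-linear
endomorphisms. -/
noncomputable def galEnd (N m : ℕ) [NeZero N] :
    (AlgebraicClosure ℚ ≃ₐ[ℚ] AlgebraicClosure ℚ) →* Module.End ℤ ↥(Jp N m) where
  toFun σ := (galJp N m σ).toIntLinearMap
  map_one' := by
    refine LinearMap.ext fun x => Subtype.ext ?_
    show (1 : AlgebraicClosure ℚ ≃ₐ[ℚ] AlgebraicClosure ℚ) • (x : JZero N) = x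
    exact one_smul _ _
  map_mul' σ τ := by
    refine LinearMap.ext fun x => Subtype.ext ?_
    show (σ * τ) • (x : JZero N) = σ • τ • (x : JZero N)
    exact mul_smul σ τ _

theorem coe_galEnd_apply (N m : ℕ) [NeZero N]
    (σ : AlgebraicClosure ℚ ≃ₐ[ℚ] AlgebraicClosure ℚ) (x : Jp N m) :
    ((galEnd N m σ x : Jp N m) : JZero N) = σ • (x : JZero N) := rfl

/-- The Hecke operator on `J₀(N)[m]` as a `ℤ`-linear endomorphism. -/
noncomputable def heckeEndJp (N m : ℕ) [NeZero N] (ℓ : Nat.Primes) : Module.End ℤ ↥(Jp N m) :=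
  (heckeJp N m ℓ).toIntLinearMap

theorem coe_heckeEndJp_apply (N m : ℕ) [NeZero N] (ℓ : Nat.Primes) (x : Jp N m) :
    ((heckeEndJp N m ℓ x : Jp N m) : JZero N) = heckeOperatorBar N ℓ (x : JZero N) := rfl

/-- The Lucas identity in the endomorphism ring of `J₀(N)[m]`. -/
theorem lucas_heckeEndJp (N m : ℕ) [NeZero N] (hE1 : FrobeniusRelation N m) (ℓ : ℕ)
    (hℓ : ℓ.Prime) (hℓNm : ¬ ℓ ∣ N * m) (A : ValuationSubring (AlgebraicClosure ℚ))
    (hA : A.LiesOverPrime ℓ) (σ : AlgebraicClosure ℚ ≃ₐ[ℚ] AlgebraicClosure ℚ)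
    (hσ : A.IsFrobeniusAt σ ℓ) (j : ℕ) :
    lucas (heckeEndJp N m ⟨ℓ, hℓ⟩) ((ℓ : ℕ) : Module.End ℤ ↥(Jp N m)) j
      = galEnd N m (σ ^ j)
        + ((ℓ : ℕ) : Module.End ℤ ↥(Jp N m)) ^ j * galEnd N m ((σ ^ j)⁻¹) := by
  have h1 : galEnd N m σ * galEnd N m σ⁻¹ = 1 :=
    calc galEnd N m σ * galEnd N m σ⁻¹ = galEnd N m (σ * σ⁻¹) :=
          ((galEnd N m).map_mul σ σ⁻¹).symm
      _ = galEnd N m 1 := congrArg (galEnd N m) (mul_inv_cancel σ)
      _ = 1 := (galEnd N m).map_one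
  have h2 : galEnd N m σ⁻¹ * galEnd N m σ = 1 :=
    calc galEnd N m σ⁻¹ * galEnd N m σ = galEnd N m (σ⁻¹ * σ) :=
          ((galEnd N m).map_mul σ⁻¹ σ).symm
      _ = galEnd N m 1 := congrArg (galEnd N m) (inv_mul_cancel σ)
      _ = 1 := (galEnd N m).map_one
  have h3 : galEnd N m σ * galEnd N m σ - heckeEndJp N m ⟨ℓ, hℓ⟩ * galEnd N m σ
      + ((ℓ : ℕ) : Module.End ℤ ↥(Jp N m)) = 0 := by
    refine LinearMap.ext fun x => Subtype.ext ?_
    have h := hE1 ℓ hℓ hℓNm A hA σ hσ (x : JZero N) x.2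
    simp only [LinearMap.add_apply, LinearMap.sub_apply, Module.End.mul_apply,
      Module.End.natCast_apply, LinearMap.zero_apply]
    show σ • σ • (x : JZero N) - heckeOperatorBar N ⟨ℓ, hℓ⟩ (σ • (x : JZero N))
      + ((ℓ • x : Jp N m) : JZero N) = 0
    rw [← h]
    congr 1
  have e1 : galEnd N m σ ^ j = galEnd N m (σ ^ j) := ((galEnd N m).map_pow σ j).symm
  have e2 : galEnd N m σ⁻¹ ^ j = galEnd N m ((σ ^ j)⁻¹) :=
    calc galEnd N m σ⁻¹ ^ j = galEnd N m (σ⁻¹ ^ j) := ((galEnd N m).map_pow σ⁻¹ j).symm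
      _ = galEnd N m ((σ ^ j)⁻¹) := congrArg (galEnd N m) (inv_pow σ j)
  rw [lucas_eq_pow_add_pow_aux _ _ _ ℓ h1 h2 h3 j]
  exact congrArg₂ (· + ·) e1 (congrArg (((ℓ : ℕ) : Module.End ℤ ↥(Jp N m)) ^ j * ·) e2)

/-- The Lucas elements of the Hecke operator on `J₀(N)[m]` and on `J₀(N)` agree. -/
theorem coe_lucas_heckeEndJp (N m : ℕ) [NeZero N] (ℓ : Nat.Primes) (c : ℕ) (j : ℕ)
    (y : Jp N m) :
    ((lucas (heckeEndJp N m ℓ) ((c : ℕ) : Module.End ℤ ↥(Jp N m)) j y : Jp N m) : JZero N)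
      = lucas (heckeOperatorBar N ℓ) ((c : ℕ) : Module.End ℤ (JZero N)) j (y : JZero N) := by
  induction j using Nat.twoStepInduction generalizing y with
  | zero =>
    rw [lucas_zero, lucas_zero]
    have h1 : ((2 : Module.End ℤ ↥(Jp N m)) y : Jp N m) = y + y := by
      rw [← one_add_one_eq_two, LinearMap.add_apply, Module.End.one_apply]
    have h2 : (2 : Module.End ℤ (JZero N)) (y : JZero N) = (y : JZero N) + (y : JZero N) := by
      rw [← one_add_one_eq_two, LinearMap.add_apply, Module.End.one_apply]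
    rw [h1, h2]
    rfl
  | one =>
    rw [lucas_one, lucas_one]
    rfl
  | more j ih1 ih2 =>
    rw [lucas_add_two, lucas_add_two]
    simp only [LinearMap.sub_apply, Module.End.mul_apply, Module.End.natCast_apply]
    rw [← ih1, ← ih2]
    rfl

end GeomTorsion

/-- On the `m`-torsion of `J₀(N)`: `lucas (T_ℓ) ℓ j = σ ^ j + ℓ ^ j σ ^ (−j)` for a Frobenius
lift `σ` at `ℓ ∤ N m` (from (E1)). -/
theorem lucas_heckeOperatorBar_apply {N m : ℕ} [NeZero N] (hE1 : FrobeniusRelation N m)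
    {ℓ : ℕ} (hℓ : ℓ.Prime) (hℓNm : ¬ ℓ ∣ N * m)
    (A : ValuationSubring (AlgebraicClosure ℚ)) (hA : A.LiesOverPrime ℓ)
    (σ : AlgebraicClosure ℚ ≃ₐ[ℚ] AlgebraicClosure ℚ) (hσ : A.IsFrobeniusAt σ ℓ) (j : ℕ)
    (x : JZero N) (hx : x ∈ Jp N m) :
    lucas (heckeOperatorBar N ⟨ℓ, hℓ⟩) ((ℓ : ℕ) : Module.End ℤ (JZero N)) j x
      = (σ ^ j) • x + ((ℓ : ℤ) ^ j) • ((σ ^ j)⁻¹ • x) := by
  have h1 := GeomTorsion.coe_lucas_heckeEndJp N m ⟨ℓ, hℓ⟩ ℓ j ⟨x, hx⟩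
  have h2 := GeomTorsion.lucas_heckeEndJp N m hE1 ℓ hℓ hℓNm A hA σ hσ j
  have h3 : (lucas (GeomTorsion.heckeEndJp N m ⟨ℓ, hℓ⟩) ((ℓ : ℕ) : Module.End ℤ ↥(Jp N m)) j
      (⟨x, hx⟩ : Jp N m) : Jp N m)
      = GeomTorsion.galEnd N m (σ ^ j) ⟨x, hx⟩
        + (ℓ ^ j) • GeomTorsion.galEnd N m ((σ ^ j)⁻¹) ⟨x, hx⟩ := by
    rw [h2, ← Nat.cast_pow]
    simp only [LinearMap.add_apply, Module.End.mul_apply, Module.End.natCast_apply]
  have h4 : lucas (heckeOperatorBar N ⟨ℓ, hℓ⟩) ((ℓ : ℕ) : Module.End ℤ (JZero N)) j x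
      = ((GeomTorsion.galEnd N m (σ ^ j) ⟨x, hx⟩
        + (ℓ ^ j) • GeomTorsion.galEnd N m ((σ ^ j)⁻¹) ⟨x, hx⟩ : Jp N m) : JZero N) := by
    rw [← h3]
    exact h1.symm
  rw [h4]
  show (σ ^ j) • x + (ℓ ^ j) • ((σ ^ j)⁻¹ • x) = (σ ^ j) • x + ((ℓ : ℤ) ^ j) • ((σ ^ j)⁻¹ • x)
  rw [← Nat.cast_pow, natCast_zsmul]

end Fermat.Agent.S31
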