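import Fermat.Agent.S31.Defs
import Fermat.Agent.S31.GeomField
import Fermat.Agent.S31.GeomCyclo
import Fermat.Agent.S31.GeomTorsion
import Fermat.Agent.S31.GeomKummerB
import Fermat.Agent.S42.FrobQbar
import Fermat.Agent.S42.Kummer

/-!
# P16 (S31), Geom chain, module G5: the pair of Frobenius elements

`exists_frob_pair`: for `τ` in an inertia group at a prime `q ∉ S`, `g ∈ Gal(ℚ̄/ℚ)`, a finite level
`L` and `n`, there are good primes `ℓ`, `ℓ'`, Frobenius elements `σ`, `σ'` at `ℓ`, `ℓ'` and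
exponents `j`, `j'` with `σ ^ j = g` and `σ' ^ j' = τ g` on `L`, such that the element
`lucasE ℓ j - lucasE ℓ' j'` of the free algebra on the good primes kills every cuspidal character
`Γ₀(N) → ℤ/p ^ n`.
-/

set_option autoImplicit false
set_option linter.style.haveILetI false

namespace Fermat.Agent.S31

open Fermat.Agent.S42 Fermat.Agent.S30 CongruenceSubgroup ModularCurve
open scoped MatrixGroups

namespace Geom

/-- A Galois subextension of `ℚ̄/ℚ` is stable under the absolute Galois group. -/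
theorem apply_mem_of_isGalois (L' : IntermediateField ℚ (AlgebraicClosure ℚ)) [IsGalois ℚ L']
    (g : AlgebraicClosure ℚ ≃ₐ[ℚ] AlgebraicClosure ℚ) {y : AlgebraicClosure ℚ} (hy : y ∈ L') :
    g y ∈ L' := by
  have h := (IntermediateField.normal_iff_forall_map_le'.mp (inferInstance : Normal ℚ L')) g
  exact h ⟨y, hy, rfl⟩

/-- If `s` and `g` agree on a Galois level `L'` whose absolute Galois group fixes the class `c`,
then `s` and `g`, as well as their inverses, agree on `c`. -/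
theorem smul_eq_of_eqOn {N : ℕ} [NeZero N] (L' : IntermediateField ℚ (AlgebraicClosure ℚ))
    [IsGalois ℚ L'] {c : JZero N}
    (hfix : ∀ ρ : AlgebraicClosure ℚ ≃ₐ[ℚ] AlgebraicClosure ℚ, (∀ y ∈ L', ρ y = y) → ρ • c = c)
    {s g : AlgebraicClosure ℚ ≃ₐ[ℚ] AlgebraicClosure ℚ} (h : ∀ y ∈ L', s y = g y) :
    s • c = g • c ∧ s⁻¹ • c = g⁻¹ • c := by
  constructor
  · have h1 : (g⁻¹ * s) • c = c := hfix _ (fun y hy => by
      rw [AlgEquiv.mul_apply, h y hy]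
      exact g.symm_apply_apply y)
    rw [mul_smul] at h1
    calc s • c = g • g⁻¹ • s • c := (smul_inv_smul g (s • c)).symm
      _ = g • c := by rw [h1]
  · have h2 : (s * g⁻¹) • c = c := hfix _ (fun y hy => by
      rw [AlgEquiv.mul_apply, h (g⁻¹ y) (apply_mem_of_isGalois L' g⁻¹ hy)]
      exact g.apply_symm_apply y)
    rw [mul_smul] at h2
    calc s⁻¹ • c = s⁻¹ • s • g⁻¹ • c := by rw [h2]
      _ = g⁻¹ • c := inv_smul_smul s _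

/-- Congruent integers act in the same way on the `m`-torsion. -/
theorem zsmul_eq_of_modEq {N m : ℕ} [NeZero N] {a b : ℕ} (h : a ≡ b [MOD m]) {x : JZero N}
    (hx : x ∈ Jp N m) : (a : ℤ) • x = (b : ℤ) • x := by
  have h0 : (m : ℤ) • x = 0 := mem_Jp.mp hx
  obtain ⟨k, hk⟩ := (Nat.modEq_iff_dvd.mp h)
  have h1 : ((b : ℤ) - (a : ℤ)) • x = 0 := by
    rw [hk, mul_comm, mul_smul, h0, smul_zero]
  rw [sub_smul, sub_eq_zero] at h1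
  exact h1.symm

end Geom

theorem exists_frob_pair (N p : ℕ) [NeZero N] [Fact p.Prime] (S : Finset ℕ) (hpS : p ∈ S)
    (hNS : ∀ q : ℕ, q.Prime → q ∣ N → q ∈ S)
    (hE1 : ∀ n : ℕ, FrobeniusRelation N (p ^ n)) (hE2 : ∀ n : ℕ, InertiaTrivial N (p ^ n))
    (n : ℕ) (L : IntermediateField ℚ (AlgebraicClosure ℚ)) [FiniteDimensional ℚ L]
    (q : ℕ) (hq : q.Prime) (hqS : q ∉ S)
    (P : ValuationSubring (AlgebraicClosure ℚ)) (hP : P.LiesOverPrime q)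
    (τ : AlgebraicClosure ℚ ≃ₐ[ℚ] AlgebraicClosure ℚ) (hτ : τ ∈ P.inertiaSubgroupIn ℚ)
    (g : AlgebraicClosure ℚ ≃ₐ[ℚ] AlgebraicClosure ℚ) :
    ∃ (ℓ ℓ' : GoodPrime N (↑S : Set ℕ)) (A A' : ValuationSubring (AlgebraicClosure ℚ))
      (σ σ' : AlgebraicClosure ℚ ≃ₐ[ℚ] AlgebraicClosure ℚ) (j j' : ℕ),
      A.LiesOverPrime ℓ ∧ A.IsFrobeniusAt σ ℓ ∧ A'.LiesOverPrime ℓ' ∧ A'.IsFrobeniusAt σ' ℓ' ∧
      (∀ x ∈ L, (σ ^ j) x = g x) ∧ (∀ x ∈ L, (σ' ^ j') x = (τ * g) x) ∧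
      ∀ φ : Additive ↥(Gamma0 N) →+ ZMod (p ^ n), IsCuspidalHom N φ →
        evChar N (↑S : Set ℕ) (ZMod (p ^ n)) (lucasE ℓ j - lucasE ℓ' j') φ = 0 := by
  have hp : p.Prime := Fact.out
  haveI : NeZero (p ^ n) := ⟨pow_ne_zero n hp.ne_zero⟩
  obtain ⟨L', hLL', hfd, hgal, ⟨ζ, hζL', hζ⟩, hfix⟩ := exists_galois_level N p n L
  haveI := hfd
  haveI := hgal
  obtain ⟨ℓ, A, σ, j, hℓ, hℓS, hA, hσ, hσg⟩ := exists_frobenius_pow_eq_on L' g S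
  obtain ⟨ℓ', A', σ', j', hℓ', hℓ'S, hA', hσ', hσ'g⟩ := exists_frobenius_pow_eq_on L' (τ * g) S
  -- the primes outside `S` are good
  have key : ∀ r : ℕ, r.Prime → r ∉ S → r ≠ p ∧ ¬ r ∣ N ∧ ¬ r ∣ N * p ^ n := by
    intro r hr hrS
    have h1 : r ≠ p := fun h => hrS (h ▸ hpS)
    have h2 : ¬ r ∣ N := fun h => hrS (hNS r hr h)
    refine ⟨h1, h2, fun h => ?_⟩
    rcases (Nat.Prime.dvd_mul hr).mp h with h3 | h3
    · exact h2 h3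
    · exact h1 ((Nat.prime_dvd_prime_iff_eq hr hp).mp (hr.dvd_of_dvd_pow h3))
  obtain ⟨hℓp, hℓN, hℓNm⟩ := key ℓ hℓ hℓS
  obtain ⟨hℓ'p, hℓ'N, hℓ'Nm⟩ := key ℓ' hℓ' hℓ'S
  obtain ⟨hqp, -, hqNm⟩ := key q hq hqS
  refine ⟨⟨ℓ, hℓ, hℓN, hℓS⟩, ⟨ℓ', hℓ', hℓ'N, hℓ'S⟩, A, A', σ, σ', j, j', hA, hσ, hA', hσ',
    fun x hx => hσg x (hLL' hx), fun x hx => hσ'g x (hLL' hx), ?_⟩
  intro φ hφ
  obtain ⟨c, hc⟩ := exists_isKummer_of_cuspidal N (p ^ n) φ hφ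
  have hcJ : c ∈ Jp N (p ^ n) := isKummer_mem_Jp hc
  refine evChar_lucasE_sub_eq_zero_B (↑S : Set ℕ) ⟨ℓ, hℓ, hℓN, hℓS⟩ ⟨ℓ', hℓ', hℓ'N, hℓ'S⟩ j j' hc ?_
  have hfixc := hfix φ c hc
  obtain ⟨e1, e2⟩ := Geom.smul_eq_of_eqOn L' hfixc hσg
  obtain ⟨e1', e2'⟩ := Geom.smul_eq_of_eqOn L' hfixc hσ'g
  have hτc : ∀ x : JZero N, x ∈ Jp N (p ^ n) → τ • x = x :=
    fun x hx => hE2 n q hq hqNm P hP τ hτ x hx
  have hmod : ℓ ^ j ≡ ℓ' ^ j' [MOD p ^ n] :=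
    pow_modEq_of_frobenius hp n hℓ hℓp hℓ' hℓ'p hq hqp hA hA' hP hσ hσ' hτ hζ
      (hσg ζ hζL') (hσ'g ζ hζL')
  have e3 : (τ * g) • c = g • c := by
    rw [mul_smul]
    exact hτc _ (smul_mem_Jp g hcJ)
  have e4 : (τ * g)⁻¹ • c = g⁻¹ • c := by
    rw [mul_inv_rev, mul_smul]
    refine congrArg (fun z => g⁻¹ • z) ?_
    calc τ⁻¹ • c = τ⁻¹ • τ • c := by rw [hτc c hcJ]
      _ = c := inv_smul_smul τ c
  have e5 : ((ℓ : ℤ) ^ j) • (g⁻¹ • c) = ((ℓ' : ℤ) ^ j') • (g⁻¹ • c) := by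
    have h5 := Geom.zsmul_eq_of_modEq hmod (smul_mem_Jp g⁻¹ hcJ)
    rw [Nat.cast_pow, Nat.cast_pow] at h5
    exact h5
  have hl := lucas_heckeOperatorBar_apply (hE1 n) hℓ hℓNm A hA σ hσ j c hcJ
  have hl' := lucas_heckeOperatorBar_apply (hE1 n) hℓ' hℓ'Nm A' hA' σ' hσ' j' c hcJ
  have hr : (σ ^ j) • c + ((ℓ : ℤ) ^ j) • ((σ ^ j)⁻¹ • c) =
      (σ' ^ j') • c + ((ℓ' : ℤ) ^ j') • ((σ' ^ j')⁻¹ • c) := by
    calc (σ ^ j) • c + ((ℓ : ℤ) ^ j) • ((σ ^ j)⁻¹ • c)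
        = g • c + ((ℓ : ℤ) ^ j) • (g⁻¹ • c) :=
          congrArg₂ (· + ·) e1 (congrArg (fun z => ((ℓ : ℤ) ^ j) • z) e2)
      _ = g • c + ((ℓ' : ℤ) ^ j') • (g⁻¹ • c) := congrArg (fun z => g • c + z) e5
      _ = (σ' ^ j') • c + ((ℓ' : ℤ) ^ j') • ((σ' ^ j')⁻¹ • c) :=
          (congrArg₂ (· + ·) (e1'.trans e3)
            (congrArg (fun z => ((ℓ' : ℤ) ^ j') • z) (e2'.trans e4))).symm
  exact hl.trans (hr.trans hl'.symm)

end Fermat.Agent.S31
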