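import Mathlib

/-!
# P16 (S31): the power-sum (Lucas) sequence

`lucas t c j` is the sequence `2, t, t² − 2c, …` defined by
`lucas t c (j + 2) = t * lucas t c (j + 1) − c * lucas t c j`; it is `α ^ j + β ^ j` when
`t = α + β` and `c = α β`.  It is defined in any (not necessarily commutative) ring.
-/

set_option autoImplicit false

namespace Fermat.Agent.S31

/-- The power-sum sequence: `lucas t c j = α ^ j + β ^ j` when `t = α + β`, `c = α β`. -/
def lucas {R : Type*} [Ring R] (t c : R) : ℕ → R
  | 0 => 2
  | 1 => t
  | (j + 2) => t * lucas t c (j + 1) - c * lucas t c j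

@[simp] theorem lucas_zero {R : Type*} [Ring R] (t c : R) : lucas t c 0 = 2 := rfl

@[simp] theorem lucas_one {R : Type*} [Ring R] (t c : R) : lucas t c 1 = t := rfl

theorem lucas_add_two {R : Type*} [Ring R] (t c : R) (j : ℕ) :
    lucas t c (j + 2) = t * lucas t c (j + 1) - c * lucas t c j := rfl

theorem map_lucas {R R' : Type*} [Ring R] [Ring R'] (f : R →+* R') (t c : R) (j : ℕ) :
    f (lucas t c j) = lucas (f t) (f c) j := by
  induction j using Nat.twoStepInduction with
  | zero => rw [lucas_zero, lucas_zero, map_ofNat]
  | one => rw [lucas_one, lucas_one]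
  | more j h1 h2 => rw [lucas_add_two, lucas_add_two, map_sub, map_mul, map_mul, h1, h2]

end Fermat.Agent.S31
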