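import Mathlib
import Fermat.Agent.S31.Lucas

/-!
# P16 (S31): traces of powers in rank two, and traces modulo an ideal

* `trace_pow_eq_lucas`: for an endomorphism `y` of a free module of rank `2` with characteristic
  polynomial `X² − t X + c`, the trace of `y ^ j` is the power sum `lucas t c j`
  (Cayley–Hamilton);
* `trace_sub_mem_of_forall`: two endomorphisms of a finite free module which agree modulo
  `I • ⊤` have traces which agree modulo `I`.
-/

set_option autoImplicit false

namespace Fermat.Agent.S31

open Polynomial

namespace TracePow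

variable {R : Type*} [CommRing R] {V : Type*} [AddCommGroup V] [Module R V]
  [Module.Free R V] [Module.Finite R V]

/-- The trace is minus the second-highest coefficient of the characteristic polynomial. -/
theorem trace_eq_neg_nextCoeff (y : Module.End R V) :
    LinearMap.trace R V y = -(LinearMap.charpoly y).nextCoeff := by
  classical
  rw [LinearMap.trace_eq_matrix_trace R (Module.Free.chooseBasis R V), LinearMap.charpoly_def,
    Matrix.trace_eq_neg_charpoly_nextCoeff]

/-- In rank two, the trace is read off from the characteristic polynomial. -/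
theorem trace_eq_of_charpoly (hV : Module.finrank R V = 2) (y : Module.End R V) (t c : R)
    (h : LinearMap.charpoly y = X ^ 2 - C t * X + C c) : LinearMap.trace R V y = t := by
  rcases subsingleton_or_nontrivial R with hR | hR
  · exact Subsingleton.elim _ _
  · have hdeg : (LinearMap.charpoly y).natDegree = 2 := by
      rw [LinearMap.charpoly_natDegree, hV]
    rw [trace_eq_neg_nextCoeff, nextCoeff, if_neg (by rw [hdeg]; norm_num), hdeg, h]
    simp [coeff_X_pow, coeff_C]

/-- Cayley–Hamilton in rank two. -/
theorem sq_eq_of_charpoly (y : Module.End R V) (t c : R)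
    (h : LinearMap.charpoly y = X ^ 2 - C t * X + C c) : y ^ 2 = t • y - c • (1 : Module.End R V) := by
  have h1 := LinearMap.aeval_self_charpoly y
  rw [h] at h1
  simp only [map_add, map_sub, map_mul, map_pow, aeval_X, aeval_C] at h1
  rw [Algebra.algebraMap_eq_smul_one, Algebra.algebraMap_eq_smul_one, smul_mul_assoc, one_mul]
    at h1
  rw [← sub_eq_zero, ← h1]
  abel

/-- The three-term recursion for the powers. -/
theorem pow_add_two_of_charpoly (y : Module.End R V) (t c : R)
    (h : LinearMap.charpoly y = X ^ 2 - C t * X + C c) (j : ℕ) :
    y ^ (j + 2) = t • y ^ (j + 1) - c • y ^ j := by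
  rw [pow_add, sq_eq_of_charpoly y t c h, mul_sub, mul_smul_comm, mul_smul_comm, mul_one,
    ← pow_succ]

omit [Module.Free R V] [Module.Finite R V] in
/-- The coordinates of an element of `I • ⊤` lie in `I`. -/
theorem repr_mem_of_mem_smul_top {ι : Type*} (b : Module.Basis ι R V) (I : Ideal R) {x : V}
    (hx : x ∈ I • (⊤ : Submodule R V)) (i : ι) : b.repr x i ∈ I := by
  refine Submodule.smul_induction_on hx (fun r hr m _ => ?_) (fun x y hx hy => ?_)
  · rw [map_smul, Finsupp.smul_apply, smul_eq_mul]
    exact I.mul_mem_right _ hr
  · rw [map_add, Finsupp.add_apply]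
    exact I.add_mem hx hy

end TracePow

/-- **Traces of powers in rank two.**  If `y` has characteristic polynomial `X² − t X + c` on a
free module of rank `2`, then `tr (y ^ j) = lucas t c j`. -/
theorem trace_pow_eq_lucas {R : Type*} [CommRing R] {V : Type*} [AddCommGroup V] [Module R V]
    [Module.Free R V] [Module.Finite R V] (hV : Module.finrank R V = 2) (y : Module.End R V)
    (t c : R)
    (h : LinearMap.charpoly y = Polynomial.X ^ 2 - Polynomial.C t * Polynomial.X + Polynomial.C c)
    (j : ℕ) : LinearMap.trace R V (y ^ j) = lucas t c j := by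
  induction j using Nat.twoStepInduction with
  | zero =>
    rw [pow_zero, LinearMap.trace_one, hV, lucas_zero]
    norm_num
  | one => rw [pow_one, lucas_one, TracePow.trace_eq_of_charpoly hV y t c h]
  | more j h1 h2 =>
    rw [TracePow.pow_add_two_of_charpoly y t c h, map_sub, map_smul, map_smul, h1, h2,
      lucas_add_two, smul_eq_mul, smul_eq_mul]

/-- **Traces modulo an ideal.**  If `f v − g v ∈ I • ⊤` for all `v`, then `tr f − tr g ∈ I`. -/
theorem trace_sub_mem_of_forall {R : Type*} [CommRing R] {V : Type*} [AddCommGroup V]
    [Module R V] [Module.Free R V] [Module.Finite R V] (I : Ideal R) (f g : Module.End R V)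
    (h : ∀ v : V, f v - g v ∈ I • (⊤ : Submodule R V)) :
    LinearMap.trace R V f - LinearMap.trace R V g ∈ I := by
  classical
  rw [← map_sub, LinearMap.trace_eq_matrix_trace R (Module.Free.chooseBasis R V), Matrix.trace]
  refine I.sum_mem fun i _ => ?_
  rw [Matrix.diag_apply, LinearMap.toMatrix_apply, LinearMap.sub_apply]
  exact TracePow.repr_mem_of_mem_smul_top _ I (h _) i

end Fermat.Agent.S31
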