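import Fermat.Agent.S31.Span
import Fermat.Agent.S31.TracePow
import Fermat.Agent.S31.CharLattice
import Fermat.Agent.S31.Geom
import Fermat.Agent.S37.Main
import Fermat.Prelude.Def_CuspForm_HeckeGaloisRepDatum

/-!
# P16 (S31): the main theorem

`isUnramifiedAt_of_E`: the Galois representation of a Hecke–Galois datum is unramified at every
prime `q ∉ S`, given the Eichler–Shimura relation (E1) and the triviality of inertia (E2) on the
`p ^ n`-torsion of `J₀(N)`; `isUnramifiedAt`: the same unconditionally, (E1) and (E2) being supplied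
by P12 (`Fermat/Agent/S37/Main.lean`).

Proof: for `τ` in an inertia group at `q` and every `g`, `tr ρ(τ g) = tr ρ(g)`: modulo `𝔪 ^ n`
both are values of `π ∘ evHecke` at Lucas elements of Frobenius lifts (`exists_frob_pair`,
`trace_pow_eq_lucas`), whose difference lies in `p ^ (n - c) 𝕋` (`exists_bound`); then Krull's
intersection theorem and `eq_one_of_trace_mul_eq` (Burnside + Nakayama + trace form).
-/

set_option autoImplicit false

namespace Fermat.Agent.S31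

open Fermat.Agent.S42 Fermat.Agent.S30 CongruenceSubgroup TensorProduct
open scoped MatrixGroups

namespace Main

/-- If `s` and `g` agree on a level `L` at which `ρ` is trivial modulo `I`, then the traces of
`ρ g` and `ρ s` agree modulo `I`. -/
theorem trace_sub_mem {T : Type} [CommRing T] [IsLocalRing T] (ρ : GaloisRepAdic T)
    (I : Ideal T) (L : IntermediateField ℚ (AlgebraicClosure ℚ))
    (hL : ∀ σ : AlgebraicClosure ℚ ≃ₐ[ℚ] AlgebraicClosure ℚ, (∀ x ∈ L, σ x = x) →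
      ∀ v : ρ.V, ρ.ρ σ v - v ∈ I • (⊤ : Submodule T ρ.V))
    (g s : AlgebraicClosure ℚ ≃ₐ[ℚ] AlgebraicClosure ℚ) (hgs : ∀ x ∈ L, s x = g x) :
    LinearMap.trace T ρ.V (ρ.ρ g) - LinearMap.trace T ρ.V (ρ.ρ s) ∈ I := by
  refine trace_sub_mem_of_forall I _ _ fun v => ?_
  have hfix : ∀ x ∈ L, (s⁻¹ * g) x = x := by
    intro x hx
    show s⁻¹ (g x) = x
    rw [← hgs x hx]
    exact s.symm_apply_apply x
  have h1 := hL (s⁻¹ * g) hfix v
  have h2 : ρ.ρ g v - ρ.ρ s v = ρ.ρ s (ρ.ρ (s⁻¹ * g) v - v) := by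
    rw [map_sub, ← Module.End.mul_apply, ← map_mul, mul_inv_cancel_left]
  rw [h2]
  have h3 : (I • (⊤ : Submodule T ρ.V)).map (ρ.ρ s) ≤ I • (⊤ : Submodule T ρ.V) := by
    rw [Submodule.map_smul'']
    exact Submodule.smul_mono le_rfl le_top
  exact h3 (Submodule.mem_map_of_mem h1)

end Main

variable {p : ℕ} {N : ℕ} [NeZero N] {S : Finset ℕ}
  {𝒪 : Type} [CommRing 𝒪] [IsDomain 𝒪] [IsDiscreteValuationRing 𝒪]
  [IsAdicComplete (IsLocalRing.maximalIdeal 𝒪) 𝒪]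
  {θ : CuspForm.heckeAlgebra N 2 (↑S : Set ℕ) →+* IsLocalRing.ResidueField 𝒪}
  {T : Type} [CommRing T] [IsLocalRing T] [IsNoetherianRing T]
  [IsAdicComplete (IsLocalRing.maximalIdeal T) T] [Algebra 𝒪 T] [IsLocalHom (algebraMap 𝒪 T)]
  [Module.Finite 𝒪 T] [Module.Free 𝒪 T]

/-- **S31 modulo (E1), (E2).** -/
theorem isUnramifiedAt_of_E (hp : p.Prime)
    (hp𝒪 : (p : 𝒪) ∈ IsLocalRing.maximalIdeal 𝒪) (hpS : p ∈ S)
    (hNS : ∀ q : ℕ, q.Prime → q ∣ N → q ∈ S)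
    (H : CuspForm.HeckeGaloisRepDatum N (↑S : Set ℕ) 𝒪 θ T)
    (hE1 : ∀ n : ℕ, FrobeniusRelation N (p ^ n)) (hE2 : ∀ n : ℕ, InertiaTrivial N (p ^ n))
    (q : ℕ) (hq : q.Prime) (hqS : q ∉ S) :
    H.ρ.IsUnramifiedAt q := by
  haveI : Fact p.Prime := ⟨hp⟩
  intro P hP τ hτ
  refine eq_one_of_trace_mul_eq H.ρ H.residual_absIrr τ fun g => ?_
  have hpT : (p : T) ∈ IsLocalRing.maximalIdeal T := by
    have h1 : (p : T) = algebraMap 𝒪 T (p : 𝒪) := (map_natCast (algebraMap 𝒪 T) p).symm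
    rw [h1]
    exact map_nonunit (algebraMap 𝒪 T) _ hp𝒪
  obtain ⟨c, hc⟩ := exists_bound N (↑S : Set ℕ) p hp.pos
  have key : ∀ n : ℕ, LinearMap.trace T H.ρ.V (H.ρ.ρ (τ * g)) - LinearMap.trace T H.ρ.V (H.ρ.ρ g)
      ∈ IsLocalRing.maximalIdeal T ^ (n - c) := by
    intro n
    obtain ⟨L, hL, hcont⟩ := H.ρ.isAdicContinuous n
    haveI := hL
    obtain ⟨ℓ, ℓ', A, A', σ, σ', j, j', hA, hσ, hA', hσ', hg, hτg, hev⟩ :=
      exists_frob_pair N p S hpS hNS hE1 hE2 n L q hq hqS P hP τ hτ g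
    obtain ⟨t, ht⟩ := hc n _ hev
    have hle : IsLocalRing.maximalIdeal T ^ n ≤ IsLocalRing.maximalIdeal T ^ (n - c) :=
      Ideal.pow_le_pow_right (Nat.sub_le n c)
    have h1 : ∀ (ℓ : GoodPrime N (↑S : Set ℕ)) (A : ValuationSubring (AlgebraicClosure ℚ))
        (σ : AlgebraicClosure ℚ ≃ₐ[ℚ] AlgebraicClosure ℚ) (j : ℕ), A.LiesOverPrime ℓ →
        A.IsFrobeniusAt σ ℓ →
        LinearMap.trace T H.ρ.V (H.ρ.ρ (σ ^ j)) = H.π (evHecke N (↑S : Set ℕ) (lucasE ℓ j)) := by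
      intro ℓ A σ j hA hσ
      rw [map_pow, trace_pow_eq_lucas H.ρ.finrank_eq (H.ρ.ρ σ) _ _
        (H.charpoly_frob ℓ.1 ℓ.2.1 ℓ.2.2.1 ℓ.2.2.2 A hA σ hσ) j, evHecke_lucasE, map_lucas,
        map_natCast]
    have h3 := hle (Main.trace_sub_mem H.ρ _ L hcont g (σ ^ j) hg)
    have h4 := hle (Main.trace_sub_mem H.ρ _ L hcont (τ * g) (σ' ^ j') hτg)
    rw [h1 ℓ A σ j hA hσ] at h3
    rw [h1 ℓ' A' σ' j' hA' hσ'] at h4
    have h5 : H.π (evHecke N (↑S : Set ℕ) (lucasE ℓ j)) - H.π (evHecke N (↑S : Set ℕ) (lucasE ℓ' j'))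
        ∈ IsLocalRing.maximalIdeal T ^ (n - c) := by
      rw [← map_sub, ← map_sub, ht, map_zsmul, zsmul_eq_mul, Int.cast_pow, Int.cast_natCast]
      exact Ideal.mul_mem_right _ _ (Ideal.pow_mem_pow hpT _)
    have h6 : LinearMap.trace T H.ρ.V (H.ρ.ρ (τ * g)) - LinearMap.trace T H.ρ.V (H.ρ.ρ g)
        = (LinearMap.trace T H.ρ.V (H.ρ.ρ (τ * g)) - H.π (evHecke N (↑S : Set ℕ) (lucasE ℓ' j')))
          - (LinearMap.trace T H.ρ.V (H.ρ.ρ g) - H.π (evHecke N (↑S : Set ℕ) (lucasE ℓ j)))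
          - (H.π (evHecke N (↑S : Set ℕ) (lucasE ℓ j))
              - H.π (evHecke N (↑S : Set ℕ) (lucasE ℓ' j'))) := by ring
    rw [h6]
    exact Ideal.sub_mem _ (Ideal.sub_mem _ h4 h3) h5
  have hbot : (⨅ i : ℕ, IsLocalRing.maximalIdeal T ^ i) = ⊥ :=
    Ideal.iInf_pow_eq_bot_of_isLocalRing _ (Ideal.IsMaximal.ne_top inferInstance)
  have hmem : LinearMap.trace T H.ρ.V (H.ρ.ρ (τ * g)) - LinearMap.trace T H.ρ.V (H.ρ.ρ g)
      ∈ (⨅ i : ℕ, IsLocalRing.maximalIdeal T ^ i) := by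
    rw [Ideal.mem_iInf]
    intro i
    have := key (i + c)
    rwa [Nat.add_sub_cancel] at this
  rw [hbot, Ideal.mem_bot] at hmem
  exact sub_eq_zero.mp hmem

/-- (E1) on the `p ^ n`-torsion of `J₀(N)`, from P12. -/
theorem Main.frobeniusRelation_pow (N p n : ℕ) [NeZero N] : FrobeniusRelation N (p ^ n) := by
  intro ℓ hℓ hℓNm A hA σ hσ x hx
  have hx' : (p ^ n) ^ 1 • x = 0 := by
    rw [pow_one, ← natCast_zsmul]
    exact mem_Jp.mp hx
  have h := Fermat.Agent.S37.frobenius_relation_of_torsion N (p ^ n) ℓ hℓ hℓNm A hA σ hσ x 1 hx'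
  rwa [← natCast_zsmul] at h

/-- (E2) on the `p ^ n`-torsion of `J₀(N)`, from P12. -/
theorem Main.inertiaTrivial_pow (N p n : ℕ) [NeZero N] : InertiaTrivial N (p ^ n) := by
  intro ℓ hℓ hℓNm A hA τ hτ x hx
  have hx' : (p ^ n) ^ 1 • x = 0 := by
    rw [pow_one, ← natCast_zsmul]
    exact mem_Jp.mp hx
  exact Fermat.Agent.S37.inertia_smul_of_torsion N (p ^ n) ℓ hℓ hℓNm A hA τ hτ x 1 hx'

/-- **S31**: the Galois representation of a Hecke–Galois datum is unramified outside `S`. -/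
theorem isUnramifiedAt (hp : p.Prime)
    (hp𝒪 : (p : 𝒪) ∈ IsLocalRing.maximalIdeal 𝒪) (hpS : p ∈ S)
    (hNS : ∀ q : ℕ, q.Prime → q ∣ N → q ∈ S)
    (H : CuspForm.HeckeGaloisRepDatum N (↑S : Set ℕ) 𝒪 θ T)
    (q : ℕ) (hq : q.Prime) (hqS : q ∉ S) :
    H.ρ.IsUnramifiedAt q :=
  isUnramifiedAt_of_E hp hp𝒪 hpS hNS H (fun n => Main.frobeniusRelation_pow N p n)
    (fun n => Main.inertiaTrivial_pow N p n) q hq hqS

end Fermat.Agent.S31
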