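import Mathlib

/-!
P16 / S31, module `Burnside2`: Burnside's theorem.

* `Burnside2.subalgebra_eq_top`: over an algebraically closed field `K`, a subalgebra of
  `End_K V` (`V` finite-dimensional, nonzero) without nontrivial invariant subspaces is everything
  (Schur's lemma and the Jacobson density theorem);
* `span_eq_top_of_irreducible`: an irreducible representation `r : G →* End_K W` of a monoid on a
  `2`-dimensional space over an algebraically closed field spans `End_K W`.
-/

set_option autoImplicit false

namespace Fermat.Agent.S31

open Module

namespace Burnside2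

variable {K V : Type*} [Field K] [IsAlgClosed K] [AddCommGroup V] [Module K V]
  [FiniteDimensional K V]

/-- **Burnside's theorem** (algebraically closed field): a subalgebra of `End_K V` without
nontrivial invariant subspaces is everything. -/
theorem subalgebra_eq_top [Nontrivial V] (R : Subalgebra K (Module.End K V))
    (hirr : ∀ W : Submodule K V, (∀ a ∈ R, ∀ x ∈ W, a x ∈ W) → W = ⊥ ∨ W = ⊤) :
    R = ⊤ := by
  -- `V` is a simple `R`-module
  have hnt : Nontrivial (Submodule R V) := (Submodule.nontrivial_iff R).2 inferInstance
  have hsimple : IsSimpleModule R V := by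
    refine (isSimpleModule_iff R V).2 ⟨fun W => ?_⟩
    let W' : Submodule K V :=
      { carrier := W
        add_mem' := W.add_mem
        zero_mem' := W.zero_mem
        smul_mem' := fun c x hx => by
          have h := W.smul_mem (algebraMap K R c) hx
          rwa [algebraMap_smul] at h }
    have hW' : ∀ a ∈ R, ∀ x ∈ W', a x ∈ W' := fun a ha x hx => W.smul_mem ⟨a, ha⟩ hx
    rcases hirr W' hW' with h | h
    · left
      rw [eq_bot_iff]
      intro x hx
      have hx' : x ∈ W' := hx
      rw [h] at hx'
      exact hx'
    · right
      rw [eq_top_iff]
      intro x _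
      have hx' : x ∈ W' := by rw [h]; exact Submodule.mem_top
      exact hx'
  -- Schur's lemma and the density theorem
  have hS := IsSimpleModule.algebraMap_end_bijective_of_isAlgClosed (A := R) (V := V) K
  have hfin : Module.Finite (Module.End R V) V :=
    Module.Finite.of_restrictScalars_finite K (Module.End R V) V
  have hden := Module.Finite.toModuleEnd_moduleEnd_surjective (R := R) (M := V)
  rw [eq_top_iff]
  intro g _
  let f : Module.End (Module.End R V) V :=
    { toFun := g
      map_add' := g.map_add
      map_smul' := fun φ v => by
        obtain ⟨c, rfl⟩ := hS.2 φ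
        simp only [RingHom.id_apply, Module.End.smul_def, Module.algebraMap_end_apply]
        exact g.map_smul c v }
  obtain ⟨r, hr⟩ := hden f
  have hgr : g = (r : Module.End K V) := by
    refine LinearMap.ext fun v => ?_
    have h := congrArg (fun F : Module.End (Module.End R V) V => F v) hr
    exact h.symm
  rw [hgr]
  exact r.2

omit [IsAlgClosed K] in
/-- The span of the image of a monoid homomorphism into an algebra is the subalgebra it
generates. -/
theorem span_range_eq_adjoin {A : Type*} [Ring A] [Algebra K A] {G : Type*} [Monoid G]
    (r : G →* A) :
    Submodule.span K (Set.range r) = Subalgebra.toSubmodule (Algebra.adjoin K (Set.range r)) := by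
  rw [Algebra.adjoin_eq_span]
  congr 1
  have h : (Set.range r : Set A) = ((MonoidHom.mrange r : Submonoid A) : Set A) := rfl
  rw [h, Submonoid.closure_eq]

end Burnside2

/-- **Burnside2.**  An irreducible representation of a monoid on a `2`-dimensional vector space
over an algebraically closed field spans the full endomorphism algebra. -/
theorem span_eq_top_of_irreducible {K : Type*} [Field K] [IsAlgClosed K] {W : Type*}
    [AddCommGroup W] [Module K W] (hW : Module.finrank K W = 2) {G : Type*} [Monoid G]
    (r : G →* Module.End K W)
    (hirr : ∀ U : Submodule K W, (∀ g : G, ∀ x ∈ U, r g x ∈ U) → U = ⊥ ∨ U = ⊤) :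
    Submodule.span K (Set.range r) = ⊤ := by
  have hfd : FiniteDimensional K W := Module.finite_of_finrank_eq_succ hW
  have hnt : Nontrivial W := Module.nontrivial_of_finrank_eq_succ hW
  have htop : Algebra.adjoin K (Set.range r) = ⊤ := by
    refine Burnside2.subalgebra_eq_top _ (fun U hU => hirr U (fun g x hx => ?_))
    exact hU (r g) (Algebra.subset_adjoin ⟨g, rfl⟩) x hx
  rw [Burnside2.span_range_eq_adjoin, htop, Algebra.top_toSubmodule]

end Fermat.Agent.S31
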