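import Fermat.Agent.S30.TateDefs
import Fermat.Agent.S31.Lucas

/-!
# P16 (S31): shared definitions

* `GoodPrime N S` : the primes `ℓ ∤ N`, `ℓ ∉ S`;
* `heckeEnd`      : the Hecke transform `S30.heckeFun` of additive characters of `Γ₀(N)` with values
                    in an abelian group `A`, as a `ℤ`-linear endomorphism;
* `evChar N S A`  : the evaluation of the free algebra on the good primes at the operators
                    `heckeEnd` on `A`-valued characters (natural in `A`: `evChar_comp`);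
* `evHecke N S`   : the evaluation of the free algebra at the Hecke operators `T_ℓ` of the frozen
                    Hecke algebra `CuspForm.heckeAlgebra N 2 S`;
* `lucasE ℓ j`    : the element `lucas X_ℓ ℓ j` of the free algebra.
-/

set_option autoImplicit false

namespace Fermat.Agent.S31

open Fermat.Agent.S42 Fermat.Agent.S30 CongruenceSubgroup
open scoped MatrixGroups

/-- The good primes: `ℓ ∤ N`, `ℓ ∉ S`. -/
abbrev GoodPrime (N : ℕ) (S : Set ℕ) : Type := {ℓ : ℕ // ℓ.Prime ∧ ¬ ℓ ∣ N ∧ ℓ ∉ S}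

/-- The Hecke transform `S30.heckeFun` on `A`-valued additive characters of `Γ₀(N)`, as a
`ℤ`-linear endomorphism. -/
noncomputable def heckeEnd (N ℓ : ℕ) (hℓ : ℓ.Prime) (hℓN : ¬ ℓ ∣ N) (A : Type*) [AddCommGroup A] :
    Module.End ℤ (Additive ↥(Gamma0 N) →+ A) :=
  (AddMonoidHom.mk' (heckeFun N ℓ hℓ hℓN) (heckeFun_add hℓ hℓN)).toIntLinearMap

@[simp] theorem heckeEnd_apply (N ℓ : ℕ) (hℓ : ℓ.Prime) (hℓN : ¬ ℓ ∣ N) (A : Type*)
    [AddCommGroup A] (φ : Additive ↥(Gamma0 N) →+ A) :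
    heckeEnd N ℓ hℓ hℓN A φ = heckeFun N ℓ hℓ hℓN φ := rfl

/-- Evaluation of the free `ℤ`-algebra on the good primes at the Hecke transforms of `A`-valued
additive characters of `Γ₀(N)`. -/
noncomputable def evChar (N : ℕ) (S : Set ℕ) (A : Type*) [AddCommGroup A] :
    FreeAlgebra ℤ (GoodPrime N S) →ₐ[ℤ] Module.End ℤ (Additive ↥(Gamma0 N) →+ A) :=
  FreeAlgebra.lift ℤ (fun ℓ : GoodPrime N S => heckeEnd N ℓ.1 ℓ.2.1 ℓ.2.2.1 A)

@[simp] theorem evChar_ι (N : ℕ) (S : Set ℕ) (A : Type*) [AddCommGroup A] (ℓ : GoodPrime N S) :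
    evChar N S A (FreeAlgebra.ι ℤ ℓ) = heckeEnd N ℓ.1 ℓ.2.1 ℓ.2.2.1 A := by
  simp [evChar]

/-- `evChar` is natural in the coefficient group. -/
theorem evChar_comp (N : ℕ) (S : Set ℕ) {A B : Type*} [AddCommGroup A] [AddCommGroup B]
    (f : A →+ B) (e : FreeAlgebra ℤ (GoodPrime N S)) (φ : Additive ↥(Gamma0 N) →+ A) :
    evChar N S B e (f.comp φ) = f.comp (evChar N S A e φ) := by
  induction e using FreeAlgebra.induction generalizing φ with
  | grade0 r =>
    rw [AlgHom.commutes, AlgHom.commutes, Module.algebraMap_end_apply, Module.algebraMap_end_apply]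
    ext γ
    simp
  | grade1 ℓ =>
    rw [evChar_ι, evChar_ι, heckeEnd_apply, heckeEnd_apply, heckeFun_comp]
  | mul a b ha hb =>
    rw [map_mul, map_mul, Module.End.mul_apply, Module.End.mul_apply, hb, ha]
  | add a b ha hb =>
    rw [map_add, map_add, LinearMap.add_apply, LinearMap.add_apply, ha, hb]
    ext γ
    simp

/-- Evaluation of the free `ℤ`-algebra on the good primes at the Hecke operators `T_ℓ` of the
frozen Hecke algebra. -/
noncomputable def evHecke (N : ℕ) [NeZero N] (S : Set ℕ) :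
    FreeAlgebra ℤ (GoodPrime N S) →ₐ[ℤ] CuspForm.heckeAlgebra N 2 S :=
  FreeAlgebra.lift ℤ
    (fun ℓ : GoodPrime N S => CuspForm.heckeAlgebra.T (k := 2) ℓ.2.1 ℓ.2.2.1 ℓ.2.2.2)

@[simp] theorem evHecke_ι (N : ℕ) [NeZero N] (S : Set ℕ) (ℓ : GoodPrime N S) :
    evHecke N S (FreeAlgebra.ι ℤ ℓ) = CuspForm.heckeAlgebra.T (k := 2) ℓ.2.1 ℓ.2.2.1 ℓ.2.2.2 := by
  simp [evHecke]

/-- The element `lucas X_ℓ ℓ j` of the free algebra on the good primes. -/
noncomputable def lucasE {N : ℕ} {S : Set ℕ} (ℓ : GoodPrime N S) (j : ℕ) :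
    FreeAlgebra ℤ (GoodPrime N S) :=
  lucas (FreeAlgebra.ι ℤ ℓ) ((ℓ : ℕ) : FreeAlgebra ℤ (GoodPrime N S)) j

theorem evHecke_lucasE (N : ℕ) [NeZero N] (S : Set ℕ) (ℓ : GoodPrime N S) (j : ℕ) :
    evHecke N S (lucasE ℓ j) =
      lucas (CuspForm.heckeAlgebra.T (k := 2) ℓ.2.1 ℓ.2.2.1 ℓ.2.2.2 : CuspForm.heckeAlgebra N 2 S)
        ((ℓ : ℕ) : CuspForm.heckeAlgebra N 2 S) j := by
  unfold lucasE
  rw [← AlgHom.coe_toRingHom, map_lucas, AlgHom.coe_toRingHom, evHecke_ι, map_natCast]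

theorem evChar_lucasE (N : ℕ) (S : Set ℕ) (A : Type*) [AddCommGroup A] (ℓ : GoodPrime N S)
    (j : ℕ) :
    evChar N S A (lucasE ℓ j) =
      lucas (heckeEnd N ℓ.1 ℓ.2.1 ℓ.2.2.1 A)
        ((ℓ : ℕ) : Module.End ℤ (Additive ↥(Gamma0 N) →+ A)) j := by
  unfold lucasE
  rw [← AlgHom.coe_toRingHom, map_lucas, AlgHom.coe_toRingHom, evChar_ι, map_natCast]

end Fermat.Agent.S31
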