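import Fermat.Agent.S31.Defs
import Fermat.Agent.S42.PeriodEigen

/-!
# P16 (S31), module Faithful: the Hecke algebra is a quotient of the Hecke algebra of characters

`evHecke_eq_zero_of_evChar`: an element `e` of the free algebra on the good primes whose
evaluation at the Hecke transforms kills every cuspidal integer-valued additive character of
`Γ₀(N)` evaluates to `0` in the frozen Hecke algebra `CuspForm.heckeAlgebra N 2 S`.

Proof.  (1) `evChar ℂ e` kills every cuspidal `ℂ`-valued character `ψ`: otherwise push `ψ` through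
a `ℚ`-linear functional `ℂ → ℚ` not vanishing on a value of `evChar ℂ e ψ` and clear denominators
(`Γ₀(N)` is finitely generated) to get a cuspidal integer-valued character not killed by
`evChar ℤ e` (naturality `evChar_comp`).  (2) The period map intertwines `evHecke e` with
`evChar ℂ e` (induction on `e`; `periodMap_hecke`, linearity of the period map).  (3) The period map
is injective and takes cuspidal values.
-/

set_option autoImplicit false

namespace Fermat.Agent.S31

open Fermat.Agent.S42 Fermat.Agent.S30 CongruenceSubgroup UpperHalfPlane ModularCurve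
open scoped MatrixGroups

namespace Faithful

/-- A `ℚ`-linear functional on `ℂ` not vanishing at a given nonzero `x`, with the denominators of
its values on a homomorphism `P` from a finitely generated group cleared. -/
theorem exists_int_functional {G : Type*} [Group G] (hG : Group.FG G) (P : Additive G →+ ℂ)
    (x : ℂ) (hx : x ≠ 0) :
    ∃ (ψ₀ : Additive G →+ ℤ) (Λ : ℂ →+ ℚ) (d : ℤ), Λ x ≠ 0 ∧ d ≠ 0 ∧
      ∀ γ, ((ψ₀ γ : ℤ) : ℚ) = (d : ℚ) * Λ (P γ) := by
  classical
  obtain ⟨L, hL⟩ : ∃ L : ℂ →ₗ[ℚ] ℚ, L x ≠ 0 := Module.Projective.exists_dual_ne_zero ℚ hx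
  obtain ⟨S₀, hS₀, hfin⟩ := Group.fg_iff.mp hG
  obtain ⟨b, hb⟩ := IsLocalization.exist_integer_multiples_of_finset (nonZeroDivisors ℤ)
    (hfin.toFinset.image (fun s : G => L (P (Additive.ofMul s))))
  have hd0 : (b : ℤ) ≠ 0 := nonZeroDivisors.coe_ne_zero b
  let jA : ℤ →+ ℚ := Int.castAddHom ℚ
  have hjA : Function.Injective jA := Int.cast_injective
  let Q : Additive G →+ ℚ :=
    (AddMonoidHom.mulLeft (((b : ℤ) : ℚ))).comp (L.toAddMonoidHom.comp P)
  have hQapp : ∀ γ, Q γ = ((b : ℤ) : ℚ) * L (P γ) := fun γ => rfl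
  have hmem : ∀ g : G, Q (Additive.ofMul g) ∈ jA.range := by
    intro g
    have hg : g ∈ Subgroup.closure S₀ := by
      rw [hS₀]
      exact Subgroup.mem_top g
    induction hg using Subgroup.closure_induction with
    | mem y hy =>
      have hy' : L (P (Additive.ofMul y)) ∈
          hfin.toFinset.image (fun s : G => L (P (Additive.ofMul s))) :=
        Finset.mem_image.mpr ⟨y, hfin.mem_toFinset.mpr hy, rfl⟩
      obtain ⟨z, hz⟩ := hb _ hy'
      refine ⟨z, ?_⟩
      rw [hQapp]
      rw [Algebra.smul_def] at hz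
      exact hz
    | one => rw [ofMul_one, map_zero]; exact jA.range.zero_mem
    | mul y z _ _ hy hz => rw [ofMul_mul, map_add]; exact jA.range.add_mem hy hz
    | inv y _ hy => rw [ofMul_inv, map_neg]; exact jA.range.neg_mem hy
  have hmem' : ∀ γ : Additive G, Q γ ∈ jA.range := fun γ => hmem (Additive.toMul γ)
  let ψ₀ : Additive G →+ ℤ :=
    (AddMonoidHom.ofInjective hjA).symm.toAddMonoidHom.comp (Q.codRestrict jA.range hmem')
  have hψ₀ : ∀ γ, ((ψ₀ γ : ℤ) : ℚ) = Q γ := by
    intro γ
    have h := AddMonoidHom.apply_ofInjective_symm hjA (Q.codRestrict jA.range hmem' γ)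
    exact h
  exact ⟨ψ₀, L.toAddMonoidHom, (b : ℤ), hL, hd0, fun γ => by rw [hψ₀ γ, hQapp]; rfl⟩

/-- Step (1): if `evChar ℤ e` kills the cuspidal integer-valued characters, then `evChar ℂ e` kills
the cuspidal complex-valued characters. -/
theorem evChar_complex_eq_zero (N : ℕ) [NeZero N] (S : Set ℕ)
    (e : FreeAlgebra ℤ (GoodPrime N S))
    (h : ∀ ψ : Additive ↥(Gamma0 N) →+ ℤ, IsCuspidalHom N ψ → evChar N S ℤ e ψ = 0)
    (ψ : Additive ↥(Gamma0 N) →+ ℂ) (hψ : IsCuspidalHom N ψ) : evChar N S ℂ e ψ = 0 := by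
  by_contra hne
  obtain ⟨γ₁, hγ₁⟩ : ∃ γ₁, evChar N S ℂ e ψ γ₁ ≠ 0 := by
    by_contra hcon
    exact hne (AddMonoidHom.ext fun γ => not_not.mp fun hγ => hcon ⟨γ, hγ⟩)
  obtain ⟨ψ₀, Λ, d, hΛ, hd, hψ₀⟩ := exists_int_functional (gamma0_fg N) ψ _ hγ₁
  let f : ℂ →+ ℚ := (AddMonoidHom.mulLeft ((d : ℤ) : ℚ)).comp Λ
  have h1 : (Int.castAddHom ℚ).comp ψ₀ = f.comp ψ := AddMonoidHom.ext fun γ => hψ₀ γ
  have hcusp : IsCuspidalHom N ψ₀ := by
    intro γ hγ
    have h2 := hψ₀ (Additive.ofMul γ)
    rw [hψ γ hγ, map_zero, mul_zero] at h2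
    exact_mod_cast h2
  have h3 : evChar N S ℚ e ((Int.castAddHom ℚ).comp ψ₀) = 0 := by
    rw [evChar_comp, h ψ₀ hcusp]
    exact AddMonoidHom.comp_zero _
  rw [h1, evChar_comp] at h3
  have h4 := DFunLike.congr_fun h3 γ₁
  have h5 : ((d : ℤ) : ℚ) * Λ (evChar N S ℂ e ψ γ₁) = 0 := h4
  rcases mul_eq_zero.mp h5 with h6 | h6
  · exact hd (by exact_mod_cast h6)
  · exact hΛ h6

/-- Step (2): the period map intertwines the Hecke algebra with the Hecke transforms of
characters. -/
theorem periodMap_evHecke (N : ℕ) [NeZero N] (S : Set ℕ) (e : FreeAlgebra ℤ (GoodPrime N S))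
    (f : CuspForm (Gamma0 N) 2) :
    periodMap N ((evHecke N S e : Module.End ℂ (CuspForm (Gamma0 N) 2)) f)
      = evChar N S ℂ e (periodMap N f) := by
  obtain ⟨pml, hpml⟩ := Fermat.Agent.S21.existsPeriodMapLinear' N
  induction e using FreeAlgebra.induction generalizing f with
  | grade0 r =>
    rw [AlgHom.commutes, AlgHom.commutes, Module.algebraMap_end_apply]
    have h1 : ((algebraMap ℤ (CuspForm.heckeAlgebra N 2 S) r : CuspForm.heckeAlgebra N 2 S) :
        Module.End ℂ (CuspForm (Gamma0 N) 2)) f = r • f := by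
      have h2 : ((algebraMap ℤ (CuspForm.heckeAlgebra N 2 S) r : CuspForm.heckeAlgebra N 2 S) :
          Module.End ℂ (CuspForm (Gamma0 N) 2))
          = algebraMap ℤ (Module.End ℂ (CuspForm (Gamma0 N) 2)) r := rfl
      rw [h2, eq_intCast, Module.End.intCast_apply]
    rw [h1, ← hpml, ← hpml, map_zsmul]
  | grade1 ℓ =>
    rw [evHecke_ι, evChar_ι, heckeEnd_apply, CuspForm.heckeAlgebra.coe_T]
    exact (heckeFun_eq ℓ.2.1 ℓ.2.2.1
      (periodMap_hecke N ℓ.2.1 ℓ.2.2.1 f _ (fun τ => rfl))).symm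
  | mul a b ha hb =>
    rw [map_mul, map_mul, Module.End.mul_apply, ← hb f, ← ha]
    rfl
  | add a b ha hb =>
    rw [map_add, map_add, LinearMap.add_apply, ← ha f, ← hb f]
    have h1 : ((evHecke N S a + evHecke N S b : CuspForm.heckeAlgebra N 2 S) :
        Module.End ℂ (CuspForm (Gamma0 N) 2)) f
        = (evHecke N S a : Module.End ℂ (CuspForm (Gamma0 N) 2)) f
          + (evHecke N S b : Module.End ℂ (CuspForm (Gamma0 N) 2)) f := rfl
    rw [h1, ← hpml, ← hpml, ← hpml, map_add]

end Faithful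

/-- **Faithfulness.**  An element of the free algebra on the good primes which kills all cuspidal
integer-valued characters of `Γ₀(N)` vanishes in the Hecke algebra of weight two cusp forms. -/
theorem evHecke_eq_zero_of_evChar (N : ℕ) [NeZero N] (S : Set ℕ)
    (e : FreeAlgebra ℤ (GoodPrime N S))
    (h : ∀ ψ : Additive ↥(Gamma0 N) →+ ℤ, IsCuspidalHom N ψ → evChar N S ℤ e ψ = 0) :
    evHecke N S e = 0 := by
  apply Subtype.ext
  refine LinearMap.ext fun f => ?_
  show (evHecke N S e : Module.End ℂ (CuspForm (Gamma0 N) 2)) f = 0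
  by_contra hne
  apply PeriodEigen.periodMap_ne_zero N _ hne
  rw [Faithful.periodMap_evHecke]
  exact Faithful.evChar_complex_eq_zero N S e h _ (PeriodEigen.periodMap_cuspidal N f)

end Fermat.Agent.S31
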