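import Fermat.Agent.S31.Lucas

/-!
P16 / S31, module `GeomLucas` (G1): the Lucas sequence of an invertible root of a quadratic.

In a (not necessarily commutative) ring: if `F` is invertible with inverse `F'` and
`F² − T F + c = 0` with `c` central, then `T = F + c F'` and
`lucas T c j = F ^ j + c ^ j F' ^ j`.
-/

set_option autoImplicit false

namespace Fermat.Agent.S31

namespace GeomLucas

variable {R : Type*} [Ring R]

/-- If `F` is invertible with inverse `F'` and `F² − T F + c = 0` with `c` central, then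
`T = F + c F'`. -/
theorem eq_add_of_rel (T F F' c : R) (h1 : F * F' = 1)
    (hrel : F * F - T * F + c = 0) : T = F + c * F' := by
  have h := congrArg (fun x => x * F') hrel
  simp only [add_mul, sub_mul, zero_mul, mul_assoc, h1, mul_one] at h
  calc T = (F + c * F') - (F - T + c * F') := by abel
    _ = F + c * F' := by rw [h, sub_zero]

/-- **G1.**  If `F` is invertible with inverse `F'` and `F² − T F + c = 0` with `c` central, then
`lucas T c j = F ^ j + c ^ j * F' ^ j`. -/
theorem lucas_eq_pow_add (T F F' c : R) (hc : ∀ x : R, c * x = x * c) (h1 : F * F' = 1)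
    (h2 : F' * F = 1) (hrel : F * F - T * F + c = 0) (j : ℕ) :
    lucas T c j = F ^ j + c ^ j * F' ^ j := by
  have hT := eq_add_of_rel T F F' c h1 hrel
  induction j using Nat.twoStepInduction with
  | zero => rw [lucas_zero, pow_zero, pow_zero, pow_zero, mul_one]; norm_num
  | one => rw [lucas_one, pow_one, pow_one, pow_one, hT]
  | more j ih1 ih2 =>
    have hFF' : F * F' ^ (j + 1) = F' ^ j := by rw [pow_succ', ← mul_assoc, h1, one_mul]
    have hF'F : F' * F ^ (j + 1) = F ^ j := by rw [pow_succ', ← mul_assoc, h2, one_mul]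
    have hcp : ∀ (n : ℕ) (x : R), x * c ^ n = c ^ n * x := by
      intro n x
      induction n with
      | zero => rw [pow_zero, mul_one, one_mul]
      | succ n ih => rw [pow_succ, ← mul_assoc, ih, mul_assoc, ← hc, ← mul_assoc]
    rw [lucas_add_two, ih1, ih2, hT]
    have e1 : (F + c * F') * (F ^ (j + 1) + c ^ (j + 1) * F' ^ (j + 1)) =
        F ^ (j + 2) + c ^ (j + 1) * F' ^ j + c * F ^ j + c ^ (j + 2) * F' ^ (j + 2) := by
      rw [add_mul, mul_add, mul_add]
      have a1 : F * F ^ (j + 1) = F ^ (j + 2) := (pow_succ' F (j + 1)).symm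
      have a2 : F * (c ^ (j + 1) * F' ^ (j + 1)) = c ^ (j + 1) * F' ^ j := by
        rw [← mul_assoc, hcp, mul_assoc, hFF']
      have a3 : c * F' * F ^ (j + 1) = c * F ^ j := by rw [mul_assoc, hF'F]
      have a4 : c * F' * (c ^ (j + 1) * F' ^ (j + 1)) = c ^ (j + 2) * F' ^ (j + 2) := by
        rw [mul_assoc, ← mul_assoc F', hcp, mul_assoc, ← pow_succ', ← mul_assoc, ← pow_succ']
      rw [a1, a2, a3, a4]
      abel
    rw [e1, mul_add, ← mul_assoc, ← pow_succ']
    abel

end GeomLucas

/-- **G1.**  In a ring: if `F` is invertible with inverse `F'` and `F² − T F + ℓ = 0`, then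
`lucas T ℓ j = F ^ j + ℓ ^ j F' ^ j`. -/
theorem lucas_eq_pow_add_pow {R : Type*} [Ring R] (F F' T : R) (ℓ : ℕ) (h1 : F * F' = 1)
    (h2 : F' * F = 1) (hq : F * F - T * F + (ℓ : R) = 0) (j : ℕ) :
    lucas T (ℓ : R) j = F ^ j + (ℓ : R) ^ j * F' ^ j :=
  GeomLucas.lucas_eq_pow_add T F F' (ℓ : R) (fun x => (Nat.cast_commute ℓ x).eq) h1 h2 hq j

end Fermat.Agent.S31
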