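import Mathlib

/-!
P16 / S31, module `SpanNak`: Nakayama's lemma for the span of a representation.

`T` a local ring with residue field `κ`, `V` a finite free `T`-module, `r : G →* End_T V`.  If the
reductions `(r g).baseChange κ` span `End_κ (κ ⊗ V)` over `κ`, then the `r g` span `End_T V`
over `T`.
-/

set_option autoImplicit false

namespace Fermat.Agent.S31

open TensorProduct

namespace SpanNak

variable {T : Type*} [CommRing T] [IsLocalRing T] {V : Type*} [AddCommGroup V] [Module T V]

/-- The coordinates of an element of `𝔪 V` lie in `𝔪`. -/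
theorem repr_mem_of_mem_smul {ι : Type*} (b : Module.Basis ι T V) {x : V}
    (hx : x ∈ IsLocalRing.maximalIdeal T • (⊤ : Submodule T V)) (i : ι) :
    b.repr x i ∈ IsLocalRing.maximalIdeal T := by
  refine Submodule.smul_induction_on (p := fun x => b.repr x i ∈ IsLocalRing.maximalIdeal T) hx
    ?_ ?_
  · intro a ha v _
    rw [map_smul, Finsupp.smul_apply, smul_eq_mul]
    exact Ideal.mul_mem_right _ _ ha
  · intro x y hx hy
    rw [map_add, Finsupp.add_apply]
    exact Ideal.add_mem _ hx hy

/-- An endomorphism of a finite free module whose reduction modulo `𝔪` vanishes lies in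
`𝔪 · End_T V`. -/
theorem mem_smul_top_of_baseChange_eq_zero [Module.Free T V] [Module.Finite T V]
    (D : Module.End T V) (hD : D.baseChange (IsLocalRing.ResidueField T) = 0) :
    D ∈ IsLocalRing.maximalIdeal T • (⊤ : Submodule T (Module.End T V)) := by
  classical
  let b := Module.Free.chooseBasis T V
  -- the matrix coefficients lie in `𝔪`
  have hcoef : ∀ i j, LinearMap.toMatrix b b D i j ∈ IsLocalRing.maximalIdeal T := by
    intro i j
    have h1 : D.baseChange (IsLocalRing.ResidueField T) ((1 : IsLocalRing.ResidueField T) ⊗ₜ[T] b j)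
        = 0 := by rw [hD, LinearMap.zero_apply]
    rw [LinearMap.baseChange_tmul] at h1
    have h2 := congrArg (fun y => (b.baseChange (IsLocalRing.ResidueField T)).repr y i) h1
    simp only [Module.Basis.baseChange_repr_tmul, map_zero, Finsupp.zero_apply] at h2
    rw [LinearMap.toMatrix_apply]
    rw [Algebra.smul_def, mul_one] at h2
    exact (IsLocalRing.residue_eq_zero_iff _).1 h2
  -- `D` is the sum of its coefficients times the matrix units
  have hsum : D = ∑ i, ∑ j, LinearMap.toMatrix b b D i j •
      (LinearMap.toMatrix b b).symm (Matrix.single i j (1 : T)) := by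
    apply (LinearMap.toMatrix b b).injective
    rw [map_sum]
    simp_rw [map_sum, map_smul, LinearEquiv.apply_symm_apply]
    conv_lhs => rw [Matrix.matrix_eq_sum_single (LinearMap.toMatrix b b D)]
    refine Finset.sum_congr rfl fun i _ => Finset.sum_congr rfl fun j _ => ?_
    rw [Matrix.smul_single, smul_eq_mul, mul_one]
  rw [hsum]
  refine Submodule.sum_mem _ fun i _ => Submodule.sum_mem _ fun j _ => ?_
  exact Submodule.smul_mem_smul (hcoef i j) Submodule.mem_top

end SpanNak

/-- **SpanNak.**  If the reductions of the `r g` span `End_κ (κ ⊗ V)`, then the `r g` span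
`End_T V`. -/
theorem span_eq_top_of_residue {T : Type*} [CommRing T] [IsLocalRing T] {V : Type*}
    [AddCommGroup V] [Module T V] [Module.Free T V] [Module.Finite T V] {G : Type*} [Monoid G]
    (r : G →* Module.End T V)
    (h : Submodule.span (IsLocalRing.ResidueField T)
      (Set.range fun g : G => (r g).baseChange (IsLocalRing.ResidueField T)) = ⊤) :
    Submodule.span T (Set.range r) = ⊤ := by
  -- every element of the span of the reductions is the reduction of an element of the span
  have hlift : ∀ y ∈ Submodule.span (IsLocalRing.ResidueField T)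
      (Set.range fun g : G => (r g).baseChange (IsLocalRing.ResidueField T)),
      ∃ w ∈ Submodule.span T (Set.range r), w.baseChange (IsLocalRing.ResidueField T) = y := by
    intro y hy
    induction hy using Submodule.span_induction with
    | mem y hy =>
      obtain ⟨g, rfl⟩ := hy
      exact ⟨r g, Submodule.subset_span ⟨g, rfl⟩, rfl⟩
    | zero => exact ⟨0, Submodule.zero_mem _, LinearMap.baseChange_zero⟩
    | add y z _ _ hy hz =>
      obtain ⟨w, hw, rfl⟩ := hy
      obtain ⟨w', hw', rfl⟩ := hz
      exact ⟨w + w', Submodule.add_mem _ hw hw', LinearMap.baseChange_add _ _⟩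
    | smul c y _ hy =>
      obtain ⟨w, hw, rfl⟩ := hy
      obtain ⟨c, rfl⟩ := IsLocalRing.residue_surjective c
      refine ⟨c • w, Submodule.smul_mem _ c hw, ?_⟩
      rw [LinearMap.baseChange_smul]
      exact algebraMap_smul _ c _
  rw [eq_top_iff]
  refine Submodule.le_of_le_smul_of_le_jacobson_bot (I := IsLocalRing.maximalIdeal T)
    Module.Finite.fg_top (IsLocalRing.maximalIdeal_le_jacobson ⊥) ?_
  intro C _
  obtain ⟨w, hw, hwC⟩ := hlift (C.baseChange (IsLocalRing.ResidueField T)) (by
    rw [h]; exact Submodule.mem_top)
  have hD : (C - w).baseChange (IsLocalRing.ResidueField T) = 0 := by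
    rw [LinearMap.baseChange_sub, hwC]
    exact sub_self (LinearMap.baseChange (IsLocalRing.ResidueField T) C)
  have hCw : C = w + (C - w) := by abel
  rw [hCw]
  exact Submodule.add_mem_sup hw (SpanNak.mem_smul_top_of_baseChange_eq_zero _ hD)

end Fermat.Agent.S31
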