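import Mathlib

/-!
P16 (S31), Span chain: the trace form `(f, g) ↦ tr (f g)` on the endomorphisms of a finite free
module is nondegenerate.
-/

set_option autoImplicit false

namespace Fermat.Agent.S31

/-- An endomorphism of a finite free module which is trace-orthogonal to all endomorphisms is
zero. -/
theorem eq_zero_of_trace_mul_eq_zero {R : Type*} [CommRing R] {V : Type*} [AddCommGroup V]
    [Module R V] [Module.Free R V] [Module.Finite R V] (f : Module.End R V)
    (h : ∀ g : Module.End R V, LinearMap.trace R V (f * g) = 0) : f = 0 := by
  classical
  rcases subsingleton_or_nontrivial R with hR | hR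
  · have := Module.subsingleton R V
    exact Subsingleton.elim _ _
  · let b := Module.Free.chooseBasis R V
    apply (LinearMap.toMatrix b b).injective
    rw [map_zero]
    rw [Matrix.ext_iff_trace_mul_right]
    intro X
    have h1 := h (Matrix.toLin b b X)
    rw [LinearMap.trace_eq_matrix_trace R b, LinearMap.toMatrix_mul,
      LinearMap.toMatrix_toLin] at h1
    rw [h1, Matrix.zero_mul, Matrix.trace_zero]

end Fermat.Agent.S31
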