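import Fermat.Agent.S31.SpanDescent
import Fermat.Agent.S31.SpanNak
import Fermat.Agent.S31.TraceForm
import Fermat.Prelude.Def_GaloisRep_Adic

/-!
P16 (S31), Span chain, final step: for a residually absolutely irreducible representation `ρ`
over a local ring `T`, an element `τ` with `tr ρ(τ g) = tr ρ(g)` for all `g` acts trivially.

Proof: the image of `ρ` spans `End_T V` (Burnside over the algebraic closure of the residue field,
descent to the residue field, Nakayama), and the trace form is nondegenerate.
-/

set_option autoImplicit false

namespace Fermat.Agent.S31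

open TensorProduct

/-- The image of a residually absolutely irreducible representation spans the endomorphisms. -/
theorem span_range_eq_top {T : Type} [CommRing T] [IsLocalRing T] (ρ : GaloisRepAdic T)
    (hirr : ρ.residual.IsAbsolutelyIrreducible) :
    Submodule.span T (Set.range ρ.ρ) = ⊤ := by
  apply span_eq_top_of_residue ρ.ρ
  exact span_eq_top_of_absIrr ρ.residual.finrank_eq ρ.residual.ρ
    (AlgebraicClosure (IsLocalRing.ResidueField T)) hirr

/-- An element whose translates have the same traces acts trivially. -/
theorem eq_one_of_trace_mul_eq {T : Type} [CommRing T] [IsLocalRing T] (ρ : GaloisRepAdic T)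
    (hirr : ρ.residual.IsAbsolutelyIrreducible)
    (τ : AlgebraicClosure ℚ ≃ₐ[ℚ] AlgebraicClosure ℚ)
    (h : ∀ g : AlgebraicClosure ℚ ≃ₐ[ℚ] AlgebraicClosure ℚ,
      LinearMap.trace T ρ.V (ρ.ρ (τ * g)) = LinearMap.trace T ρ.V (ρ.ρ g)) :
    ρ.ρ τ = 1 := by
  have hspan := span_range_eq_top ρ hirr
  have hzero : ρ.ρ τ - 1 = 0 := by
    apply eq_zero_of_trace_mul_eq_zero
    intro Y
    have hY : Y ∈ Submodule.span T (Set.range ρ.ρ) := by
      rw [hspan]
      exact Submodule.mem_top
    induction hY using Submodule.span_induction with
    | mem y hy =>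
      obtain ⟨g, rfl⟩ := hy
      rw [sub_mul, one_mul, ← map_mul, map_sub, h g, sub_self]
    | zero => rw [mul_zero, map_zero]
    | add y z _ _ hy hz => rw [mul_add, map_add, hy, hz, add_zero]
    | smul c y _ hy => rw [mul_smul_comm, map_smul, hy, smul_zero]
  exact sub_eq_zero.mp hzero

end Fermat.Agent.S31
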