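import Fermat.Agent.S31.Burnside2

/-!
P16 (S31), Span chain: descent of Burnside's theorem along a field extension.  If the base change
of a 2-dimensional representation to an algebraically closed extension is irreducible, then the
image of the representation spans the whole endomorphism algebra already over the base field.
-/

set_option autoImplicit false

namespace Fermat.Agent.S31

open TensorProduct

/-- Burnside for an absolutely irreducible 2-dimensional representation. -/
theorem span_eq_top_of_absIrr {k : Type*} [Field k] {V : Type*} [AddCommGroup V] [Module k V]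
    (hV : Module.finrank k V = 2) {G : Type*} [Monoid G] (r : G →* Module.End k V)
    (K : Type*) [Field K] [Algebra k K] [IsAlgClosed K]
    (hirr : ∀ U : Submodule K (K ⊗[k] V),
      (∀ g : G, ∀ x ∈ U, (r g).baseChange K x ∈ U) → U = ⊥ ∨ U = ⊤) :
    Submodule.span k (Set.range r) = ⊤ := by
  classical
  have : Module.Finite k V := Module.finite_of_finrank_eq_succ hV
  -- the base-changed representation
  let rK : G →* Module.End K (K ⊗[k] V) :=
    { toFun := fun g => (r g).baseChange K
      map_one' := by rw [map_one, LinearMap.baseChange_one]
      map_mul' := fun a b => by rw [map_mul, LinearMap.baseChange_mul] }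
  have hW : Module.finrank K (K ⊗[k] V) = 2 := by rw [Module.finrank_baseChange, hV]
  have hK : Submodule.span K (Set.range rK) = ⊤ := span_eq_top_of_irreducible hW rK hirr
  obtain ⟨b, hbs, hbspan, hbli⟩ := exists_linearIndependent K (Set.range rK)
  rw [hK] at hbspan
  -- `b` is a basis of the endomorphisms over `K`, so it has 4 elements
  have hfrK : Module.finrank K (Module.End K (K ⊗[k] V)) = 4 := by
    rw [Module.finrank_linearMap, hW]
  have hfrk : Module.finrank k (Module.End k V) = 4 := by
    rw [Module.finrank_linearMap, hV]
  let B : Module.Basis b K (Module.End K (K ⊗[k] V)) :=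
    Module.Basis.mk hbli (by rw [Subtype.range_coe]; exact hbspan.ge)
  have hcard : Nat.card b = 4 := by rw [← Module.finrank_eq_nat_card_basis B, hfrK]
  have : Finite b := Nat.finite_of_card_ne_zero (by rw [hcard]; norm_num)
  let _ : Fintype b := Fintype.ofFinite b
  -- preimages
  have hex : ∀ x : b, ∃ g : G, (r g).baseChange K = (x : Module.End K (K ⊗[k] V)) :=
    fun x => hbs x.2
  choose g hg using hex
  have hli : LinearIndependent k (fun x : b => r (g x)) := by
    apply LinearIndependent.of_comp (LinearMap.baseChangeHom k K V V)
    have h1 : (LinearMap.baseChangeHom k K V V) ∘ (fun x : b => r (g x)) =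
        (fun x : b => (x : Module.End K (K ⊗[k] V))) := by
      funext x
      exact hg x
    rw [h1]
    exact hbli.restrict_scalars' k
  have htop : Submodule.span k (Set.range fun x : b => r (g x)) = ⊤ :=
    hli.span_eq_top_of_card_eq_finrank' (by rw [hfrk, ← Nat.card_eq_fintype_card, hcard])
  rw [eq_top_iff, ← htop]
  apply Submodule.span_mono
  rintro _ ⟨x, rfl⟩
  exact ⟨g x, rfl⟩

end Fermat.Agent.S31
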